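/-
FFJ / S32-glue (helper81), brick BLR81: the Boston–Lenstra–Ribet / Carayol lemma in the form needed
to exhibit `V / I V` as a Galois subquotient of a module with Cayley–Hamilton relations.

`A` a commutative ring with `2` invertible, `V` free of rank two with a representation
`ρ : G → End_A V` whose image spans `End_A V`, `B` a finitely generated `A`-module with an action
`σ : G → End_A B` satisfying the Cayley–Hamilton relations
`σ(g)² - tr ρ(g) σ(g) + det ρ(g) = 0`.  Then the kernel of `A[G] → End_A V` kills `B`, and there is a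
`G`-equivariant `A`-linear map `F : V → B^r` whose kernel is `Ann_A(B) • V`.

Mathlib only.
-/
import Mathlib

set_option autoImplicit false

noncomputable section

namespace Fermat.Agent.FFJ.Glue.BLR81

open Module

/-! ### Polarisation of the Cayley–Hamilton relation (non-commutative algebra) -/

section Polar

variable {A : Type*} [CommRing A] {E : Type*} [Ring E] [Algebra A E]

/-- if `a` is invertible and `a² = t a - d`, then `d a⁻¹ = t - a`. -/
theorem smul_inv_eq {a a' : E} (ha : a * a' = 1) {t d : A}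
    (hC : a * a - t • a + d • (1 : E) = 0) : d • a' = t • (1 : E) - a := by
  have h := congrArg (fun x => x * a') hC
  simp only [add_mul, sub_mul, smul_mul_assoc, mul_assoc, ha, mul_one, one_mul, zero_mul] at h
  -- h : a - t • 1 + d • a' = 0
  linear_combination (norm := module) h

/-- **polarised Cayley–Hamilton** for two invertible elements whose product also satisfies the
relation with the product determinant. -/
theorem polar_units {a a' b b' : E} (ha : a * a' = 1) (hb : b * b' = 1)
    {ta tb tab da db : A}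
    (hCa : a * a - ta • a + da • (1 : E) = 0) (hCb : b * b - tb • b + db • (1 : E) = 0)
    (hCab : (a * b) * (a * b) - tab • (a * b) + (da * db) • (1 : E) = 0) :
    a * b + b * a = ta • b + tb • a + (tab - ta * tb) • (1 : E) := by
  have h1 := smul_inv_eq ha hCa
  have h2 := smul_inv_eq hb hCb
  have hab : (a * b) * (b' * a') = 1 := by
    rw [mul_assoc, ← mul_assoc b, hb, one_mul, ha]
  have h3 := smul_inv_eq hab hCab
  -- (da * db) • (b' * a') = (db • b') * (da • a')
  have h4 : (da * db) • (b' * a') = (db • b') * (da • a') := by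
    rw [smul_mul_assoc, mul_smul_comm, smul_smul, mul_comm]
  rw [h4, h1, h2] at h3
  -- h3 : (tb • 1 - b) * (ta • 1 - a) = tab • 1 - a * b
  have h5 : (tb • (1 : E) - b) * (ta • (1 : E) - a)
      = (tb * ta) • (1 : E) - tb • a - ta • b + b * a := by
    simp only [sub_mul, mul_sub, smul_mul_assoc, mul_smul_comm, one_mul, mul_one]
    module
  rw [h5] at h3
  linear_combination (norm := module) h3

end Polar

/-! ### The group algebra -/

section GroupAlg

variable {A : Type*} [CommRing A] {V B : Type*} [AddCommGroup V] [Module A V]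
  [AddCommGroup B] [Module A B] {G : Type*} [Group G]

/-- the extension of a representation to the group algebra. -/
def gAlg (ρ : G →* Module.End A V) : MonoidAlgebra A G →ₐ[A] Module.End A V :=
  MonoidAlgebra.lift A (Module.End A V) G ρ

@[simp]
theorem gAlg_of (ρ : G →* Module.End A V) (g : G) :
    gAlg ρ (MonoidAlgebra.of A G g) = ρ g := by
  simp [gAlg]

/-- the trace function on the group algebra. -/
def trG (ρ : G →* Module.End A V) : MonoidAlgebra A G →ₗ[A] A :=
  (LinearMap.trace A V).comp (gAlg ρ).toLinearMap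

theorem trG_apply (ρ : G →* Module.End A V) (x : MonoidAlgebra A G) :
    trG ρ x = LinearMap.trace A V (gAlg ρ x) := rfl

variable (ρ : G →* Module.End A V) (σ : G →* Module.End A B)

/-- the defect of the polarised Cayley–Hamilton identity. -/
def defect (x y : MonoidAlgebra A G) : Module.End A B :=
  gAlg σ x * gAlg σ y + gAlg σ y * gAlg σ x
    - (trG ρ x • gAlg σ y + trG ρ y • gAlg σ x + (trG ρ (x * y) - trG ρ x * trG ρ y) • 1)

theorem defect_add_right (x y y' : MonoidAlgebra A G) :
    defect ρ σ x (y + y') = defect ρ σ x y + defect ρ σ x y' := by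
  simp only [defect, map_add, mul_add, add_mul]
  module

theorem defect_add_left (x x' y : MonoidAlgebra A G) :
    defect ρ σ (x + x') y = defect ρ σ x y + defect ρ σ x' y := by
  simp only [defect, map_add, mul_add, add_mul]
  module

theorem defect_smul_right (a : A) (x y : MonoidAlgebra A G) :
    defect ρ σ x (a • y) = a • defect ρ σ x y := by
  simp only [defect, map_smul, mul_smul_comm, smul_mul_assoc, smul_eq_mul]
  module

theorem defect_smul_left (a : A) (x y : MonoidAlgebra A G) :
    defect ρ σ (a • x) y = a • defect ρ σ x y := by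
  simp only [defect, map_smul, mul_smul_comm, smul_mul_assoc, smul_eq_mul]
  module

/-- **polarised Cayley–Hamilton on the group algebra.** -/
theorem defect_eq_zero
    (hCH : ∀ g, σ g * σ g - LinearMap.trace A V (ρ g) • σ g + LinearMap.det (ρ g) • 1 = 0)
    (x y : MonoidAlgebra A G) : defect ρ σ x y = 0 := by
  induction x using MonoidAlgebra.induction_on with
  | of g =>
    induction y using MonoidAlgebra.induction_on with
    | of h =>
      have hg : σ g * σ g⁻¹ = 1 := by rw [← map_mul, mul_inv_cancel, map_one]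
      have hh : σ h * σ h⁻¹ = 1 := by rw [← map_mul, mul_inv_cancel, map_one]
      have hgh := hCH (g * h)
      rw [map_mul σ, map_mul ρ, map_mul (LinearMap.det)] at hgh
      have := polar_units hg hh (hCH g) (hCH h) hgh
      simp only [defect, gAlg_of, trG_apply, ← map_mul, sub_eq_zero]
      rw [map_mul σ g h, map_mul σ h g, map_mul ρ g h]
      exact this
    | add y y' hy hy' => rw [defect_add_right, hy, hy', add_zero]
    | smul a y hy => rw [defect_smul_right, hy, smul_zero]
  | add x x' hx hx' => rw [defect_add_left, hx, hx', add_zero]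
  | smul a x hx => rw [defect_smul_left, hx, smul_zero]

end GroupAlg

/-! ### The kernel of `A[G] → End V` kills `B` -/

section Kernel

variable {A : Type*} [CommRing A] {V B : Type*} [AddCommGroup V] [Module A V]
  [AddCommGroup B] [Module A B] {G : Type*} [Group G]
  (ρ : G →* Module.End A V) (σ : G →* Module.End A B)
  (hCH : ∀ g, σ g * σ g - LinearMap.trace A V (ρ g) • σ g + LinearMap.det (ρ g) • 1 = 0)
include hCH

/-- for `y` in the kernel, `x y + y x = tr(x) y` on `B`. -/
theorem anticomm_of_ker {y : MonoidAlgebra A G} (hy : gAlg ρ y = 0) (x : MonoidAlgebra A G) :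
    gAlg σ x * gAlg σ y + gAlg σ y * gAlg σ x = trG ρ x • gAlg σ y := by
  have h := defect_eq_zero ρ σ hCH x y
  have h1 : trG ρ y = 0 := by rw [trG_apply, hy, map_zero]
  have h2 : trG ρ (x * y) = 0 := by rw [trG_apply, map_mul, hy, mul_zero, map_zero]
  rw [defect, h1, h2, sub_eq_zero] at h
  rw [h]
  simp

/-- elements of the kernel kill commutators on the right. -/
theorem ker_mul_comm {y : MonoidAlgebra A G} (hy : gAlg ρ y = 0) (x x' : MonoidAlgebra A G) :
    gAlg σ y * gAlg σ (x' * x - x * x') = 0 := by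
  have i := anticomm_of_ker ρ σ hCH hy x
  have hy' : gAlg ρ (y * x') = 0 := by rw [map_mul, hy, zero_mul]
  have ii := anticomm_of_ker ρ σ hCH hy' x
  rw [map_mul] at ii
  rw [map_sub, map_mul, map_mul]
  have i' := congrArg (fun z => z * gAlg σ x') i
  simp only [add_mul, smul_mul_assoc] at i'
  -- ii : Sx (Sy Sx') + (Sy Sx') Sx = T • (Sy Sx') ; i' : Sx Sy Sx' + Sy Sx Sx' = T • (Sy Sx')
  rw [mul_sub]
  simp only [mul_assoc] at ii i' ⊢
  linear_combination (norm := module) ii - i'

/-- elements of the kernel kill commutators on the left. -/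
theorem comm_mul_ker {y : MonoidAlgebra A G} (hy : gAlg ρ y = 0) (x x' : MonoidAlgebra A G) :
    gAlg σ (x * x' - x' * x) * gAlg σ y = 0 := by
  have i := anticomm_of_ker ρ σ hCH hy x
  have hy' : gAlg ρ (x' * y) = 0 := by rw [map_mul, hy, mul_zero]
  have ii := anticomm_of_ker ρ σ hCH hy' x
  rw [map_mul] at ii
  rw [map_sub, map_mul, map_mul]
  have i' := congrArg (fun z => gAlg σ x' * z) i
  simp only [mul_add, mul_smul_comm] at i'
  rw [sub_mul]
  simp only [mul_assoc] at ii i' ⊢
  linear_combination (norm := module) ii - i'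

/-- **the kernel of `A[G] → End V` kills `B`**, given an element `c` of the commutator ideal
mapping to `1`. -/
theorem sig_eq_zero_of_rho_eq_zero (h2 : IsUnit (2 : A))
    (u₁ u₂ w₁ v₁ v₂ w₂ : MonoidAlgebra A G)
    (hc : gAlg ρ ((u₁ * u₂ - u₂ * u₁) * w₁ + (v₁ * v₂ - v₂ * v₁) * w₂) = 1)
    {y : MonoidAlgebra A G} (hy : gAlg ρ y = 0) : gAlg σ y = 0 := by
  set c : MonoidAlgebra A G := (u₁ * u₂ - u₂ * u₁) * w₁ + (v₁ * v₂ - v₂ * v₁) * w₂ with hcdef
  -- `S y * S c = 0`
  have r1 : gAlg σ y * gAlg σ c = 0 := by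
    have a1 := ker_mul_comm ρ σ hCH hy u₂ u₁
    have a2 := ker_mul_comm ρ σ hCH hy v₂ v₁
    rw [hcdef, map_add, map_mul, map_mul, mul_add, ← mul_assoc, ← mul_assoc, a1, a2]
    simp
  -- `S c * S y = 0`
  have l1 : gAlg σ c * gAlg σ y = 0 := by
    have hy1 : gAlg ρ (w₁ * y) = 0 := by rw [map_mul, hy, mul_zero]
    have hy2 : gAlg ρ (w₂ * y) = 0 := by rw [map_mul, hy, mul_zero]
    have a1 := comm_mul_ker ρ σ hCH hy1 u₁ u₂
    have a2 := comm_mul_ker ρ σ hCH hy2 v₁ v₂
    rw [map_mul] at a1 a2
    rw [hcdef, map_add, map_mul, map_mul, add_mul, mul_assoc, mul_assoc, a1, a2]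
    simp
  -- `k = 1 - c` is in the kernel
  have hk : gAlg ρ (1 - c) = 0 := by rw [map_sub, map_one, hc, sub_self]
  have h3 := anticomm_of_ker ρ σ hCH hy (1 - c)
  have ht : trG ρ (1 - c) = 0 := by rw [trG_apply, hk, map_zero]
  rw [ht, zero_smul, map_sub, map_one, sub_mul, mul_sub, one_mul, mul_one, r1, l1] at h3
  -- h3 : S y - 0 + (S y - 0) = 0
  have h4 : (2 : A) • gAlg σ y = 0 := by
    rw [two_smul]
    simpa using h3
  obtain ⟨t, ht⟩ := h2
  have := congrArg (fun z => (↑t⁻¹ : A) • z) h4
  simp only [smul_smul, smul_zero] at this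
  rwa [← ht, Units.inv_mul, one_smul] at this

end Kernel

/-! ### Matrix units and the main theorem -/

section Main

variable {A : Type*} [CommRing A] {V B : Type*} [AddCommGroup V] [Module A V]
  [AddCommGroup B] [Module A B] {G : Type*} [Group G]

/-- matrix units of `End_A V` with respect to the basis `b`. -/
def eU (b : Basis (Fin 2) A V) (i j : Fin 2) : Module.End A V := (b.coord j).smulRight (b i)

theorem eU_apply (b : Basis (Fin 2) A V) (i j : Fin 2) (v : V) :
    eU b i j v = b.repr v j • b i := rfl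

theorem eU_mul (b : Basis (Fin 2) A V) (i j k l : Fin 2) :
    eU b i j * eU b k l = if j = k then eU b i l else 0 := by
  ext v
  rw [Module.End.mul_apply, eU_apply, eU_apply, map_smul, Basis.repr_self]
  by_cases h : j = k
  · subst h
    simp [eU_apply]
  · have : (Finsupp.single k (1 : A)) j = 0 := by
      rw [Finsupp.single_apply, if_neg (Ne.symm h)]
    rw [if_neg h, Finsupp.smul_apply, this, smul_zero, zero_smul, LinearMap.zero_apply]

theorem eU_sum (b : Basis (Fin 2) A V) : eU b 0 0 + eU b 1 1 = 1 := by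
  ext v
  rw [LinearMap.add_apply, eU_apply, eU_apply, Module.End.one_apply]
  conv_rhs => rw [← b.sum_repr v]
  rw [Fin.sum_univ_two]

/-- `v` placed in the first column. -/
def colE (b : Basis (Fin 2) A V) (v : V) : Module.End A V := (b.coord 0).smulRight v

theorem colE_apply (b : Basis (Fin 2) A V) (v w : V) : colE b v w = b.repr w 0 • v := rfl

theorem mul_colE (b : Basis (Fin 2) A V) (M : Module.End A V) (v : V) :
    M * colE b v = colE b (M v) := by
  ext w
  rw [Module.End.mul_apply, colE_apply, colE_apply, map_smul]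

theorem colE_add (b : Basis (Fin 2) A V) (v v' : V) : colE b (v + v') = colE b v + colE b v' := by
  ext w
  simp [colE_apply]

theorem colE_smul (b : Basis (Fin 2) A V) (a : A) (v : V) : colE b (a • v) = a • colE b v := by
  ext w
  rw [colE_apply, LinearMap.smul_apply, colE_apply, smul_comm]

theorem colE_eq_sum (b : Basis (Fin 2) A V) (v : V) :
    colE b v = b.repr v 0 • eU b 0 0 + b.repr v 1 • eU b 1 0 := by
  ext w
  rw [colE_apply, LinearMap.add_apply, LinearMap.smul_apply, LinearMap.smul_apply, eU_apply,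
    eU_apply]
  conv_lhs => rw [← b.sum_repr v]
  rw [Fin.sum_univ_two, smul_add, smul_comm, smul_comm (b.repr w 0) (b.repr v 1)]

theorem eU_mul_colE (b : Basis (Fin 2) A V) (j : Fin 2) (v : V) :
    eU b 0 j * colE b v = b.repr v j • eU b 0 0 := by
  ext w
  rw [Module.End.mul_apply, colE_apply, map_smul, eU_apply, LinearMap.smul_apply, eU_apply,
    smul_comm]

theorem gAlg_surjective (ρ : G →* Module.End A V)
    (hspan : Submodule.span A (Set.range ρ) = ⊤) : Function.Surjective (gAlg ρ) := by
  intro M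
  have hM : M ∈ Submodule.span A (Set.range ρ) := hspan ▸ Submodule.mem_top
  induction hM using Submodule.span_induction with
  | mem x hx =>
    obtain ⟨g, rfl⟩ := hx
    exact ⟨MonoidAlgebra.of A G g, gAlg_of ρ g⟩
  | zero => exact ⟨0, map_zero _⟩
  | add x y _ _ hx hy =>
    obtain ⟨a, rfl⟩ := hx
    obtain ⟨c, rfl⟩ := hy
    exact ⟨a + c, map_add _ _ _⟩
  | smul a x _ hx =>
    obtain ⟨y, rfl⟩ := hx
    exact ⟨a • y, map_smul _ _ _⟩

variable (ρ : G →* Module.End A V) (σ : G →* Module.End A B)

/-- **Boston–Lenstra–Ribet, ring-hom form**: the action of `A[G]` on `B` factors through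
`End_A V`. -/
theorem exists_ringHom (b : Basis (Fin 2) A V) (h2 : IsUnit (2 : A)) (hspan : Submodule.span A (Set.range ρ) = ⊤)
    (hCH : ∀ g, σ g * σ g - LinearMap.trace A V (ρ g) • σ g + LinearMap.det (ρ g) • 1 = 0) :
    ∃ Φ : Module.End A V →+* Module.End A B,
      (∀ g, Φ (ρ g) = σ g) ∧ ∀ (a : A) (M : Module.End A V), Φ (a • M) = a • Φ M := by
  have hsurj := gAlg_surjective ρ hspan
  choose X hX using fun i j : Fin 2 => hsurj (eU b i j)
  have hc : gAlg ρ ((X 0 0 * X 0 1 - X 0 1 * X 0 0) * X 1 0
      + (X 1 1 * X 1 0 - X 1 0 * X 1 1) * X 0 1) = 1 := by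
    have e1 : eU b 0 0 * eU b 0 1 = eU b 0 1 := by rw [eU_mul, if_pos rfl]
    have e2 : eU b 0 1 * eU b 0 0 = 0 := by rw [eU_mul, if_neg (by decide)]
    have e3 : eU b 0 1 * eU b 1 0 = eU b 0 0 := by rw [eU_mul, if_pos rfl]
    have e4 : eU b 1 1 * eU b 1 0 = eU b 1 0 := by rw [eU_mul, if_pos rfl]
    have e5 : eU b 1 0 * eU b 1 1 = 0 := by rw [eU_mul, if_neg (by decide)]
    have e6 : eU b 1 0 * eU b 0 1 = eU b 1 1 := by rw [eU_mul, if_pos rfl]
    simp only [map_add, map_sub, map_mul, hX, e1, e2, e3, e4, e5, e6, sub_zero, eU_sum]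
  have hker : ∀ y, gAlg ρ y = 0 → gAlg σ y = 0 := fun y hy =>
    sig_eq_zero_of_rho_eq_zero ρ σ hCH h2 _ _ _ _ _ _ hc hy
  have hle : RingHom.ker (gAlg ρ).toRingHom ≤ RingHom.ker (gAlg σ).toRingHom := fun y hy =>
    hker y hy
  let Φ := RingHom.liftOfSurjective (gAlg ρ).toRingHom hsurj ⟨(gAlg σ).toRingHom, hle⟩
  have hΦ : ∀ x, Φ (gAlg ρ x) = gAlg σ x := fun x =>
    RingHom.liftOfRightInverse_comp_apply _ _ _ ⟨(gAlg σ).toRingHom, hle⟩ x
  refine ⟨Φ, fun g => ?_, fun a M => ?_⟩
  · rw [← gAlg_of ρ g, hΦ, gAlg_of]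
  · obtain ⟨x, rfl⟩ := hsurj M
    rw [← map_smul, hΦ, hΦ, map_smul]

/-- **Boston–Lenstra–Ribet / Carayol**: an equivariant map `V → B^r` with kernel `Ann_A(B) V`. -/
theorem exists_equivariant_map [Module.Finite A B] (b : Basis (Fin 2) A V) (h2 : IsUnit (2 : A))
    (hspan : Submodule.span A (Set.range ρ) = ⊤)
    (hCH : ∀ g, σ g * σ g - LinearMap.trace A V (ρ g) • σ g + LinearMap.det (ρ g) • 1 = 0) :
    ∃ (r : ℕ) (F : V →ₗ[A] (Fin r → B)), (∀ g v i, F (ρ g v) i = σ g (F v i)) ∧
      ∀ v, F v = 0 ↔ ∀ (i : Fin 2) (x : B), b.repr v i • x = 0 := by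
  obtain ⟨Φ, hΦρ, hΦs⟩ := exists_ringHom ρ σ b h2 hspan hCH
  obtain ⟨r, β, hβ⟩ := Module.Finite.exists_fin (R := A) (M := B)
  -- the map `v ↦ Φ (colE v) β`
  let f : B → V →ₗ[A] B := fun x =>
    { toFun := fun v => Φ (colE b v) x
      map_add' := fun v v' => by rw [colE_add, map_add, LinearMap.add_apply]
      map_smul' := fun a v => by rw [colE_smul, hΦs, LinearMap.smul_apply, RingHom.id_apply] }
  have hf : ∀ x v, f x v = Φ (colE b v) x := fun _ _ => rfl
  refine ⟨r, LinearMap.pi fun s => f (β s), fun g v i => ?_, fun v => ?_⟩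
  · rw [LinearMap.pi_apply, LinearMap.pi_apply, hf, hf, ← mul_colE, map_mul, hΦρ,
      Module.End.mul_apply]
  · constructor
    · intro hv i x
      -- `Φ (colE v) = 0`
      have h0 : Φ (colE b v) = 0 := by
        apply LinearMap.ext_on_range hβ
        intro s
        have := congrFun hv s
        rw [LinearMap.pi_apply, hf, Pi.zero_apply] at this
        rw [this, LinearMap.zero_apply]
      have h1 : ∀ j : Fin 2, b.repr v j • Φ (eU b 0 0) = 0 := fun j => by
        rw [← hΦs, ← eU_mul_colE, map_mul, h0, mul_zero]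
      have h2 : ∀ j : Fin 2, b.repr v j • Φ (eU b 1 1) = 0 := fun j => by
        have e : eU b 1 1 = eU b 1 0 * (eU b 0 0 * eU b 0 1) := by
          rw [eU_mul, if_pos rfl, eU_mul, if_pos rfl]
        rw [e, map_mul, map_mul, ← mul_smul_comm, ← smul_mul_assoc, h1, zero_mul, mul_zero]
      have h3 : b.repr v i • (1 : Module.End A B) = 0 := by
        rw [← map_one Φ, ← eU_sum b, map_add, smul_add, h1, h2, add_zero]
      have := LinearMap.congr_fun h3 x
      simpa using this
    · intro hv
      ext s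
      rw [LinearMap.pi_apply, hf, colE_eq_sum, map_add, hΦs, hΦs, LinearMap.add_apply,
        LinearMap.smul_apply, LinearMap.smul_apply, hv, hv, add_zero]
      rfl

end Main

end Fermat.Agent.FFJ.Glue.BLR81
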