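/-
FFJ / S32 glue, lemma (FAITH) (helper68).  Mathlib only.

Let `R` be a commutative ring acting faithfully on a finite free `ℤ`-module `Λ`, `T` a reduced
`ℤ`-flat commutative ring with a ring hom `π : R → T`, and `M = T ⊗ Λ`.  Then the `T`-module
`M / ⟨F_r m - π r • m⟩` (`= T ⊗_R Λ`) is faithful: `a M ⊆ ⟨F_r m - π r • m⟩` forces `a = 0`.

Proof: `E := T ⊗[ℤ] R` acts faithfully on `M` (flatness + matrix coefficients); `μ : E → T`,
`t ⊗ r ↦ t π r`, has kernel `𝔞` with `𝔞 M ⊇` the span; the determinant trick gives a monic `p` with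
lower coefficients in `𝔞` and `p (a ⊗ 1) = 0`; apply `μ`: `aⁿ = 0`.
-/
import Mathlib

set_option autoImplicit false
set_option linter.unusedSectionVars false

noncomputable section

open TensorProduct Polynomial

namespace Fermat.Agent.FFJ.Glue.Faith68

/-! ### The abstract determinant trick -/

/-- If the finite faithful `E`-module `M` satisfies `e M ⊆ (ker μ) M` for a ring hom `μ` into a
reduced ring, then `μ e = 0`. -/
theorem map_eq_zero_of_smul_mem {E : Type*} [CommRing E] {M : Type*} [AddCommGroup M] [Module E M]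
    [Module.Finite E M] (hfaith : ∀ x : E, (∀ m : M, x • m = 0) → x = 0)
    {T : Type*} [CommRing T] [IsReduced T] (μ : E →+* T) (e : E)
    (he : ∀ m : M, e • m ∈ RingHom.ker μ • (⊤ : Submodule E M)) : μ e = 0 := by
  have hI : LinearMap.range (algebraMap E (Module.End E M) e) ≤
      RingHom.ker μ • (⊤ : Submodule E M) := by
    rintro _ ⟨m, rfl⟩
    exact he m
  obtain ⟨p, hmonic, -, hcoeff, hp⟩ :=
    LinearMap.exists_monic_and_natDegree_eq_and_coeff_mem_pow_and_aeval_eq_zero E _ _ hI
  rw [Polynomial.aeval_algebraMap_apply_eq_algebraMap_eval] at hp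
  have h0 : p.eval e = 0 := by
    apply hfaith
    intro m
    have := LinearMap.congr_fun hp m
    simpa using this
  have h1 : μ (p.eval e) = (μ e) ^ p.natDegree := by
    rw [Polynomial.eval_eq_sum_range, map_sum, Finset.sum_range_succ, hmonic.coeff_natDegree,
      one_mul, map_pow]
    rw [Finset.sum_eq_zero, zero_add]
    intro k hk
    rw [Finset.mem_range] at hk
    have hk' : p.coeff k ∈ RingHom.ker μ := by
      have h2 := hcoeff k
      have h3 : RingHom.ker μ ^ (p.natDegree - k) ≤ RingHom.ker μ := by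
        have : p.natDegree - k = (p.natDegree - k - 1) + 1 := by omega
        rw [this, pow_succ']
        exact Ideal.mul_le_left (I := RingHom.ker μ) (J := RingHom.ker μ ^ (p.natDegree - k - 1))
      exact h3 h2
    rw [map_mul, (RingHom.mem_ker).1 hk', zero_mul]
  rw [h0, map_zero] at h1
  exact IsReduced.eq_zero _ ⟨p.natDegree, h1.symm⟩

/-! ### The action of `T ⊗[ℤ] R` on `M = T ⊗ Λ` -/

section Action

variable {R : Type*} [CommRing R] {Λ : Type*} [AddCommGroup Λ]
  (τ : R →+* Module.End ℤ Λ) {T : Type*} [CommRing T] {M : Type*} [AddCommGroup M] [Module T M]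
  {ι : Λ →ₗ[ℤ] M} (hι : IsBaseChange T ι)

/-- the `T`-linear extension of `τ r` to `M`. -/
def extEnd (r : R) : Module.End T M := hι.lift (ι ∘ₗ τ r)

theorem extEnd_apply (r : R) (y : Λ) : extEnd τ hι r (ι y) = ι (τ r y) :=
  hι.lift_eq _ y

/-- uniqueness of the extension. -/
theorem eq_extEnd (r : R) (F : Module.End T M) (hF : ∀ y, F (ι y) = ι (τ r y)) :
    F = extEnd τ hι r :=
  hι.algHom_ext _ _ fun y => by rw [hF, extEnd_apply]

/-- `r ↦` the extension of `τ r`, as a ring homomorphism. -/
def extHom : R →+* Module.End T M where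
  toFun := extEnd τ hι
  map_one' := (eq_extEnd τ hι 1 1 fun y => by simp).symm
  map_mul' r s := (eq_extEnd τ hι (r * s) (extEnd τ hι r * extEnd τ hι s) fun y => by
    simp [extEnd_apply]).symm
  map_zero' := (eq_extEnd τ hι 0 0 fun y => by simp).symm
  map_add' r s := (eq_extEnd τ hι (r + s) (extEnd τ hι r + extEnd τ hι s) fun y => by
    simp [extEnd_apply]).symm

@[simp] theorem extHom_apply (r : R) (y : Λ) : extHom τ hι r (ι y) = ι (τ r y) :=
  extEnd_apply τ hι r y

/-- the action of `T ⊗[ℤ] R` on `M`. -/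
def Psi : T ⊗[ℤ] R →ₐ[T] Module.End T M :=
  Algebra.TensorProduct.lift (Algebra.ofId T (Module.End T M)) (extHom τ hι).toIntAlgHom
    (fun t r => by
      rw [Algebra.ofId_apply]
      exact Algebra.commute_algebraMap_left t _)

theorem Psi_tmul (t : T) (r : R) (m : M) : Psi τ hι (t ⊗ₜ r) m = t • extHom τ hι r m := by
  unfold Psi
  rw [Algebra.TensorProduct.lift_tmul, Module.End.mul_apply, Algebra.ofId_apply,
    Module.algebraMap_end_apply]
  rfl

/-- the augmentation `T ⊗[ℤ] R → T`, `t ⊗ r ↦ t π r`. -/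
def mu (π : R →+* T) : T ⊗[ℤ] R →ₐ[T] T :=
  Algebra.TensorProduct.lift (AlgHom.id T T) π.toIntAlgHom (fun _ _ => Commute.all _ _)

@[simp] theorem mu_tmul (π : R →+* T) (t : T) (r : R) : mu π (t ⊗ₜ r) = t * π r := by
  simp [mu]

end Action

/-! ### Faithfulness of the action -/

section Inj

variable {R : Type*} [CommRing R] {Λ : Type*} [AddCommGroup Λ] [Module.Free ℤ Λ]
  [Module.Finite ℤ Λ] (τ : R →+* Module.End ℤ Λ) {T : Type*} [CommRing T]
  {M : Type*} [AddCommGroup M] [Module T M] {ι : Λ →ₗ[ℤ] M} (hι : IsBaseChange T ι)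

/-- index type of a `ℤ`-basis of `Λ`. -/
abbrev Idx (Λ : Type*) [AddCommGroup Λ] [Module.Free ℤ Λ] : Type _ :=
  Module.Free.ChooseBasisIndex ℤ Λ

/-- the chosen `ℤ`-basis of `Λ`. -/
abbrev bas (Λ : Type*) [AddCommGroup Λ] [Module.Free ℤ Λ] : Module.Basis (Idx Λ) ℤ Λ :=
  Module.Free.chooseBasis ℤ Λ

/-- the induced `T`-basis of `M`. -/
def basT : Module.Basis (Idx Λ) T M := ((bas Λ).baseChange T).map hι.equiv

theorem basT_repr_ι (y : Λ) (j : Idx Λ) :
    (basT hι).repr (ι y) j = (bas Λ).repr y j • (1 : T) := by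
  unfold basT
  rw [Module.Basis.map_repr, LinearEquiv.trans_apply, IsBaseChange.equiv_symm_apply,
    Module.Basis.baseChange_repr_tmul]

/-- matrix coefficients of `τ r`. -/
def coefMap : R →ₗ[ℤ] (Idx Λ × Idx Λ → ℤ) :=
  AddMonoidHom.toIntLinearMap
    { toFun := fun r jk => (bas Λ).repr (τ r ((bas Λ) jk.2)) jk.1
      map_zero' := by funext jk; simp
      map_add' := fun r s => by funext jk; simp }

theorem coefMap_apply (r : R) (j k : Idx Λ) :
    coefMap τ r (j, k) = (bas Λ).repr (τ r ((bas Λ) k)) j := rfl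

theorem coefMap_injective (hτ : Function.Injective τ) : Function.Injective (coefMap τ) := by
  rw [injective_iff_map_eq_zero]
  intro r hr
  apply hτ
  rw [map_zero]
  apply (bas Λ).ext
  intro k
  apply (bas Λ).repr.injective
  ext j
  have := congrFun hr (j, k)
  rw [coefMap_apply] at this
  simpa using this

/-- coefficients of the action of `T ⊗[ℤ] R`. -/
def Phi : T ⊗[ℤ] R →ₗ[T] (Idx Λ × Idx Λ → T) :=
  (TensorProduct.piScalarRight ℤ T T (Idx Λ × Idx Λ)).toLinearMap ∘ₗ (coefMap τ).baseChange T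

theorem Phi_tmul (t : T) (r : R) (jk : Idx Λ × Idx Λ) :
    Phi τ (t ⊗ₜ r) jk = coefMap τ r jk • t := by
  simp [Phi]

theorem Phi_injective [Module.Flat ℤ T] (hτ : Function.Injective τ) :
    Function.Injective (Phi (T := T) τ) := by
  unfold Phi
  rw [LinearMap.coe_comp]
  refine (LinearEquiv.injective _).comp ?_
  rw [LinearMap.baseChange_eq_ltensor]
  exact Module.Flat.lTensor_preserves_injective_linearMap _ (coefMap_injective τ hτ)

theorem repr_Psi (x : T ⊗[ℤ] R) (j k : Idx Λ) :
    (basT hι).repr (Psi τ hι x (ι ((bas Λ) k))) j = Phi τ x (j, k) := by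
  induction x using TensorProduct.induction_on with
  | zero => simp
  | tmul t r =>
    rw [Psi_tmul, extHom_apply, map_smul, Finsupp.smul_apply, basT_repr_ι, Phi_tmul,
      coefMap_apply, smul_eq_mul, zsmul_eq_mul, zsmul_eq_mul, mul_one, mul_comm]
  | add x y hx hy =>
    rw [map_add, LinearMap.add_apply, map_add, Finsupp.add_apply, hx, hy, map_add, Pi.add_apply]

/-- **`T ⊗[ℤ] R` acts faithfully on `M`.** -/
theorem Psi_injective [Module.Flat ℤ T] (hτ : Function.Injective τ) :
    Function.Injective (Psi τ hι) := by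
  rw [injective_iff_map_eq_zero]
  intro x hx
  apply Phi_injective τ hτ
  rw [map_zero]
  funext jk
  obtain ⟨j, k⟩ := jk
  rw [← repr_Psi τ hι, hx]
  simp

end Inj

/-! ### The main statement -/

/-- **(FAITH)**: `M / ⟨F_r m - π r • m⟩` is a faithful `T`-module. -/
theorem eq_zero_of_smul_mem_rel {R : Type*} [CommRing R] {Λ : Type*} [AddCommGroup Λ]
    [Module.Free ℤ Λ] [Module.Finite ℤ Λ] (τ : R →+* Module.End ℤ Λ) (hτ : Function.Injective τ)
    {T : Type*} [CommRing T] [IsReduced T] [Module.Flat ℤ T] (π : R →+* T)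
    {M : Type*} [AddCommGroup M] [Module T M] (ι : Λ →ₗ[ℤ] M) (hι : IsBaseChange T ι) (a : T)
    (ha : ∀ m : M, a • m ∈ Submodule.span T {x : M | ∃ (r : R) (F : Module.End T M) (m' : M),
      (∀ y, F (ι y) = ι (τ r y)) ∧ x = F m' - π r • m'}) : a = 0 := by
  -- the `E`-module structure on `M`
  let modE : Module (T ⊗[ℤ] R) M := Module.compHom M (Psi τ hι : T ⊗[ℤ] R →+* Module.End T M)
  have hsmul : ∀ (x : T ⊗[ℤ] R) (m : M), x • m = Psi τ hι x m := fun x m => rfl
  have htower : ∀ (t : T) (m : M), ((t ⊗ₜ[ℤ] (1 : R) : T ⊗[ℤ] R)) • m = t • m := by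
    intro t m
    rw [hsmul, Psi_tmul, map_one, Module.End.one_apply]
  -- `M` is finite over `E`
  have : Module.Finite T M := Module.Finite.of_basis (basT hι)
  have : Module.Finite (T ⊗[ℤ] R) M := by
    obtain ⟨s, hs⟩ := (Module.finite_def (R := T) (M := M)).1 inferInstance
    refine ⟨⟨s, ?_⟩⟩
    rw [eq_top_iff]
    rintro m -
    have hm : m ∈ Submodule.span T (s : Set M) := by rw [hs]; trivial
    induction hm using Submodule.span_induction with
    | mem z hz => exact Submodule.subset_span hz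
    | zero => exact Submodule.zero_mem _
    | add u v _ _ hu hv => exact Submodule.add_mem _ hu hv
    | smul t u _ hu =>
      rw [← htower]
      exact Submodule.smul_mem _ _ hu
  have key : mu π (a ⊗ₜ[ℤ] (1 : R)) = 0 := by
    refine map_eq_zero_of_smul_mem (M := M) ?_ (mu π : T ⊗[ℤ] R →+* T) (a ⊗ₜ[ℤ] (1 : R)) ?_
    · -- faithfulness
      intro x hx
      apply Psi_injective τ hι hτ
      rw [map_zero]
      exact LinearMap.ext fun m => hx m
    · intro m
      rw [htower]
      have hm := ha m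
      generalize a • m = z at hm
      induction hm using Submodule.span_induction with
      | mem z hz =>
        obtain ⟨r, F, m', hF, rfl⟩ := hz
        rw [eq_extEnd τ hι r F hF]
        have h1 : extEnd τ hι r m' - π r • m' =
            (((1 : T) ⊗ₜ[ℤ] r - π r ⊗ₜ[ℤ] (1 : R) : T ⊗[ℤ] R)) • m' := by
          rw [sub_smul, htower, hsmul, Psi_tmul, one_smul]
          rfl
        rw [h1]
        refine Submodule.smul_mem_smul ?_ Submodule.mem_top
        rw [RingHom.mem_ker]
        change mu π _ = 0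
        rw [map_sub, mu_tmul, mu_tmul, map_one, one_mul, mul_one, sub_self]
      | zero => exact Submodule.zero_mem _
      | add u v _ _ hu hv => exact Submodule.add_mem _ hu hv
      | smul t u _ hu =>
        rw [← htower]
        exact Submodule.smul_mem _ _ hu
  rwa [mu_tmul, map_one, mul_one] at key

end Fermat.Agent.FFJ.Glue.Faith68
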