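/-
FFJ / S32 glue (helper97).  **Closure properties of global flat models.**

`FlatModel68.FlatModel p M act` (the inner existential of the frozen `GaloisRepAdic.IsFlatAt` and of the
frozen S19) is `Closure68.ModelOf ℤ_(p) ℚ ℚ̄ M act`.  Hence, by helper68's generic closure theorems, the
class of `G_ℚ`-modules having a flat model at `p` is closed under stable subgroups, quotients by stable
subgroups, finite products, and therefore under equivariant subquotients of finite powers.

Main statements (`GQ = Gal(ℚ̄/ℚ)`, `[Fact p.Prime]`):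
* `FlatModel.sub`, `FlatModel.quotient`, `FlatModel.prod`, `FlatModel.pi` (finite powers `Fin m → M`);
* `FlatModel.act_add`, `FlatModel.act_zero`, `FlatModel.act_mul`, `FlatModel.finite`;
* `FlatModel.of_injective`, `FlatModel.of_surjective`, `FlatModel.of_subquotient`;
* `torsAct J n σ` : the action of `σ` on `torsionBy ℤ J n` for a `DistribMulAction GQ J`;
  `flatModel_torsAct_of_exists` : the literal frozen S19 conclusion gives `FlatModel p _ (torsAct ..)`;
  `FlatModel.torsion_le` : a flat model of `J[p^k]` gives one of `J[p^j]`, `j ≤ k`;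
* `isFlatAt_of_subquotient` : **the assembly**: if every finite level `V/IV` of `ρ` is an equivariant
  quotient of a group `Y` which embeds equivariantly into a finite power of some `J[p^k]`, and all
  `J[p^k]` have flat models, then `ρ.IsFlatAt p`.
-/
import Mathlib
import Fermat.Agent.TW.FF.Closure68
import Fermat.Agent.IG.VAL.Zl13

set_option autoImplicit false

noncomputable section

namespace Fermat.Agent.FFJ.Glue.FlatClosure97

open Fermat.Agent.TW.FF.FlatModel68 Fermat.Agent.TW.FF.Closure68 Fermat.Agent.S19.Shell64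
open Fermat.Agent.TW.FF.ReducedModel68 Fermat.Agent.TW.FF.FunOrder68

local notation "Qbar" => AlgebraicClosure ℚ

/-- `FlatModel` is `ModelOf` over `ℤ_(p)`, `ℚ`, `ℚ̄`. -/
theorem flatModel_iff (p : ℕ) (M : Type) [AddCommGroup M] (act : GQ → M → M) :
    FlatModel p M act ↔ ModelOf (Zloc p) ℚ Qbar M act := Iff.rfl

theorem fixedField_rat : FixedFieldEqBase ℚ Qbar :=
  have h1 : IsAlgClosure ℚ Qbar := by
    have h : (DivisionRing.toRatAlgebra : Algebra ℚ Qbar) = AlgebraicClosure.instAlgebra ℚ :=
      Subsingleton.elim _ _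
    rw [h]
    infer_instance
  have : IsGalois ℚ Qbar := IsAlgClosure.isGalois ℚ Qbar
  fixedFieldEqBase_of_isGalois

variable {p : ℕ} [Fact p.Prime]

instance charZero_Zloc : CharZero (Zloc p) :=
  ⟨fun a b h => by
    have := congrArg (fun x : Zloc p => (x : ℚ)) h
    simpa using this⟩

/-! ### The three basic closure properties -/

/-- flat models restrict to stable subgroups. -/
theorem FlatModel.sub {M : Type} [AddCommGroup M] {act : GQ → M → M} (h : FlatModel p M act)
    (N : AddSubgroup M) (hN : ∀ σ n, n ∈ N → act σ n ∈ N) (act' : GQ → N → N)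
    (hact' : ∀ σ (n : N), (act' σ n : M) = act σ n) : FlatModel p N act' :=
  ModelOf.sub (R := Zloc p) (F := ℚ) (K := Qbar) fixedField_rat h N hN act' hact'

/-- flat models pass to quotients by stable subgroups. -/
theorem FlatModel.quotient {M : Type} [AddCommGroup M] {act : GQ → M → M} (h : FlatModel p M act)
    (N : AddSubgroup M) (hN : ∀ σ n, n ∈ N → act σ n ∈ N) (act' : GQ → M ⧸ N → M ⧸ N)
    (hact' : ∀ σ (m : M), act' σ (QuotientAddGroup.mk m) = QuotientAddGroup.mk (act σ m)) :
    FlatModel p (M ⧸ N) act' :=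
  ModelOf.quotient (R := Zloc p) (F := ℚ) (K := Qbar) fixedField_rat h N hN act' hact'

/-- flat models are closed under binary products. -/
theorem FlatModel.prod {M₁ M₂ : Type} [AddCommGroup M₁] [AddCommGroup M₂] {act₁ : GQ → M₁ → M₁}
    {act₂ : GQ → M₂ → M₂} (h₁ : FlatModel p M₁ act₁) (h₂ : FlatModel p M₂ act₂) :
    FlatModel p (M₁ × M₂) (fun σ x => (act₁ σ x.1, act₂ σ x.2)) :=
  ModelOf.prod (R := Zloc p) (F := ℚ) (K := Qbar) fixedField_rat h₁ h₂

/-! ### Automatic properties of the action -/

omit [Fact p.Prime] in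
/-- in a flat model the maps `act σ` are additive. -/
theorem FlatModel.act_add {M : Type} [AddCommGroup M] {act : GQ → M → M} (h : FlatModel p M act)
    (σ : GQ) (m m' : M) : act σ (m + m') = act σ m + act σ m' := by
  obtain ⟨H, i1, i2, hfin, -, -, e, hmul, hact⟩ := h
  rw [act_eq_galSmul (F := ℚ) e act hact, act_eq_galSmul (F := ℚ) e act hact,
    act_eq_galSmul (F := ℚ) e act hact]
  exact galSmul_add (F := ℚ) e hmul σ m m'

omit [Fact p.Prime] in
theorem FlatModel.act_zero {M : Type} [AddCommGroup M] {act : GQ → M → M} (h : FlatModel p M act)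
    (σ : GQ) : act σ 0 = 0 := by
  have := FlatModel.act_add h σ 0 0
  rw [add_zero] at this
  simpa using this

omit [Fact p.Prime] in
/-- in a flat model `act` is a group action. -/
theorem FlatModel.act_mul {M : Type} [AddCommGroup M] {act : GQ → M → M} (h : FlatModel p M act)
    (σ τ : GQ) (m : M) : act (σ * τ) m = act σ (act τ m) := by
  obtain ⟨H, i1, i2, hfin, -, -, e, hmul, hact⟩ := h
  rw [act_eq_galSmul (F := ℚ) e act hact, act_eq_galSmul (F := ℚ) e act hact,
    act_eq_galSmul (F := ℚ) e act hact]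
  exact (galMulAction (F := ℚ) e).mul_smul σ τ m

/-- a flat model lives on a finite group. -/
theorem FlatModel.finite {M : Type} [AddCommGroup M] {act : GQ → M → M} (h : FlatModel p M act) :
    Finite M := by
  obtain ⟨H, i1, i2, hfin, -, -, e, hmul, hact⟩ := h
  let _ := galMulAction (F := ℚ) e
  exact IsFunOrder.finite_carrier (R := Zloc p) (isFunOrder_redAlg (F := ℚ) e hmul)

/-! ### Injections, surjections, subquotients, finite powers -/

/-- an equivariant additive injection into a group with a flat model. -/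
theorem FlatModel.of_injective {M Y : Type} [AddCommGroup M] [AddCommGroup Y] {actM : GQ → M → M}
    {actY : GQ → Y → Y} (h : FlatModel p M actM) (ι : Y →+ M) (hι : Function.Injective ι)
    (heq : ∀ σ y, ι (actY σ y) = actM σ (ι y)) : FlatModel p Y actY := by
  have hst : ∀ σ n, n ∈ ι.range → actM σ n ∈ ι.range := by
    rintro σ _ ⟨y, rfl⟩
    exact ⟨actY σ y, heq σ y⟩
  have hsub := FlatModel.sub h ι.range hst (fun σ n => ⟨actM σ n, hst σ n n.2⟩) (fun _ _ => rfl)
  refine FlatModel.of_addEquiv (AddMonoidHom.ofInjective hι).symm ?_ hsub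
  rintro σ ⟨_, y, rfl⟩
  rw [AddEquiv.symm_apply_eq]
  apply Subtype.ext
  rw [AddMonoidHom.ofInjective_apply]
  change actM σ (ι y) = ι (actY σ _)
  rw [heq]
  congr 2
  symm
  rw [AddEquiv.symm_apply_eq]
  exact Subtype.ext (by rw [AddMonoidHom.ofInjective_apply])

/-- an equivariant additive surjection from a group with a flat model. -/
theorem FlatModel.of_surjective {M Z : Type} [AddCommGroup M] [AddCommGroup Z] {actM : GQ → M → M}
    {actZ : GQ → Z → Z} (h : FlatModel p M actM) (π : M →+ Z) (hπ : Function.Surjective π)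
    (heq : ∀ σ m, π (actM σ m) = actZ σ (π m)) : FlatModel p Z actZ := by
  have hZ0 : ∀ σ, actZ σ 0 = 0 := fun σ => by
    have := heq σ 0
    rw [FlatModel.act_zero h, map_zero] at this
    exact this.symm
  have hst : ∀ σ n, n ∈ π.ker → actM σ n ∈ π.ker := by
    intro σ n hn
    rw [AddMonoidHom.mem_ker] at hn ⊢
    rw [heq, hn, hZ0]
  let φ : M ⧸ π.ker ≃+ Z := QuotientAddGroup.quotientKerEquivOfSurjective π hπ
  have hφ : ∀ m : M, φ (QuotientAddGroup.mk m) = π m := fun m => rfl
  let actQ : GQ → M ⧸ π.ker → M ⧸ π.ker := fun σ q => φ.symm (actZ σ (φ q))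
  have hq := FlatModel.quotient h π.ker hst actQ (fun σ m => by
    change φ.symm (actZ σ (φ (QuotientAddGroup.mk m))) = _
    rw [AddEquiv.symm_apply_eq, hφ, hφ, heq])
  refine FlatModel.of_addEquiv φ ?_ hq
  intro σ q
  change φ (φ.symm (actZ σ (φ q))) = _
  rw [AddEquiv.apply_symm_apply]

/-- **subquotients**: `Y ↪ M` and `Y ↠ Z`, equivariantly. -/
theorem FlatModel.of_subquotient {M Y Z : Type} [AddCommGroup M] [AddCommGroup Y] [AddCommGroup Z]
    {actM : GQ → M → M} {actY : GQ → Y → Y} {actZ : GQ → Z → Z} (h : FlatModel p M actM)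
    (ι : Y →+ M) (hι : Function.Injective ι) (hιeq : ∀ σ y, ι (actY σ y) = actM σ (ι y))
    (π : Y →+ Z) (hπ : Function.Surjective π) (hπeq : ∀ σ y, π (actY σ y) = actZ σ (π y)) :
    FlatModel p Z actZ :=
  FlatModel.of_surjective (FlatModel.of_injective h ι hι hιeq) π hπ hπeq

/-- finite powers. -/
theorem FlatModel.pi {M : Type} [AddCommGroup M] {act : GQ → M → M} (h : FlatModel p M act) (m : ℕ) :
    FlatModel p (Fin m → M) (fun σ x i => act σ (x i)) := by
  induction m with
  | zero =>
    -- the zero group is the subgroup `⊥` of `M`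
    let ι : (Fin 0 → M) →+ M := 0
    refine FlatModel.of_injective h ι (fun x y _ => Subsingleton.elim x y) (fun σ y => ?_)
    change (0 : M) = act σ 0
    rw [FlatModel.act_zero h]
  | succ m ih =>
    have hp := FlatModel.prod h ih
    let φ : (M × (Fin m → M)) ≃+ (Fin (m + 1) → M) :=
      { toFun := fun x => Fin.cons x.1 x.2
        invFun := fun y => (y 0, fun i => y i.succ)
        left_inv := fun x => by simp
        right_inv := fun y => by
          funext i
          refine Fin.cases ?_ (fun j => ?_) i <;> simp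
        map_add' := fun x y => by
          funext i
          refine Fin.cases ?_ (fun j => ?_) i <;> simp }
    refine FlatModel.of_addEquiv φ ?_ hp
    intro σ x
    funext i
    refine Fin.cases ?_ (fun j => ?_) i <;> simp [φ]

/-! ### Torsion subgroups of a `G_ℚ`-module -/

section Torsion

variable (J : Type) [AddCommGroup J] [DistribMulAction GQ J]

/-- the action of `σ` on the `n`-torsion of `J`. -/
def torsAct (n : ℤ) (σ : GQ) (x : Submodule.torsionBy ℤ J n) : Submodule.torsionBy ℤ J n :=
  ⟨σ • (x : J), by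
    rw [Submodule.mem_torsionBy_iff]
    have hx := (Submodule.mem_torsionBy_iff _ _).mp x.2
    have := map_zsmul (DistribMulAction.toAddMonoidHom J σ) n (x : J)
    simp only [DistribMulAction.toAddMonoidHom_apply] at this
    rw [← this, hx, smul_zero]⟩

omit [Fact p.Prime] in
@[simp] theorem coe_torsAct (n : ℤ) (σ : GQ) (x : Submodule.torsionBy ℤ J n) :
    (torsAct J n σ x : J) = σ • (x : J) := rfl

omit [Fact p.Prime] in
/-- the literal conclusion of the frozen S19 (for `J = JZero N`) gives `FlatModel p _ (torsAct ..)`. -/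
theorem flatModel_torsAct_of_exists (n : ℤ)
    (h : ∃ (H : Type) (_ : CommRing H) (_ : HopfAlgebra (GaloisRep.ratLocalizedAt p) H),
      Module.Finite (GaloisRep.ratLocalizedAt p) H ∧ Module.Flat (GaloisRep.ratLocalizedAt p) H ∧
      Coalgebra.IsCocomm (GaloisRep.ratLocalizedAt p) H ∧
      ∃ e : WithConv (H →ₐ[GaloisRep.ratLocalizedAt p] AlgebraicClosure ℚ) ≃
          ↥(Submodule.torsionBy ℤ J n),
        (∀ f g, e (f * g) = e f + e g) ∧
        ∀ (σ : AlgebraicClosure ℚ ≃ₐ[ℚ] AlgebraicClosure ℚ)
          (f g : WithConv (H →ₐ[GaloisRep.ratLocalizedAt p] AlgebraicClosure ℚ)),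
          (∀ h : H, g h = σ (f h)) → ((e g : J)) = σ • (e f : J)) :
    FlatModel p (Submodule.torsionBy ℤ J n) (torsAct J n) := by
  obtain ⟨H, i1, i2, hfin, hflat, hco, e, hmul, hact⟩ := h
  exact ⟨H, i1, i2, hfin, hflat, hco, e, hmul, fun σ f g hfg => Subtype.ext (hact σ f g hfg)⟩

/-- a flat model of `J[p^k]` gives one of `J[p^j]` for `j ≤ k`. -/
theorem FlatModel.torsion_le {j k : ℕ} (hjk : j ≤ k)
    (h : FlatModel p (Submodule.torsionBy ℤ J ((p : ℤ) ^ k)) (torsAct J ((p : ℤ) ^ k))) :
    FlatModel p (Submodule.torsionBy ℤ J ((p : ℤ) ^ j)) (torsAct J ((p : ℤ) ^ j)) := by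
  have hle : Submodule.torsionBy ℤ J ((p : ℤ) ^ j) ≤ Submodule.torsionBy ℤ J ((p : ℤ) ^ k) :=
    Submodule.torsionBy_le_torsionBy_of_dvd _ _ (pow_dvd_pow _ hjk)
  let ι : Submodule.torsionBy ℤ J ((p : ℤ) ^ j) →+ Submodule.torsionBy ℤ J ((p : ℤ) ^ k) :=
    (Submodule.inclusion hle).toAddMonoidHom
  exact FlatModel.of_injective h ι (Submodule.inclusion_injective hle) (fun σ y => rfl)

end Torsion

/-! ### The assembly for `GaloisRepAdic.IsFlatAt` -/

/-- **Assembly.**  If all `J[p^k]` have flat models and every finite level `V/IV` of `ρ` is an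
equivariant quotient of a group `Y` embedding equivariantly into a finite power of some `J[p^k]`, then
`ρ` is flat at `p`. -/
theorem isFlatAt_of_subquotient {A : Type} [CommRing A] [IsLocalRing A] (ρ : GaloisRepAdic A)
    (J : Type) [AddCommGroup J] [DistribMulAction GQ J]
    (hres : Finite (IsLocalRing.ResidueField A))
    (hJ : ∀ k : ℕ, FlatModel p (Submodule.torsionBy ℤ J ((p : ℤ) ^ k)) (torsAct J ((p : ℤ) ^ k)))
    (hlev : ∀ I : Ideal A, Finite (A ⧸ I) →
      ∃ (k m : ℕ) (Y : Type) (_ : AddCommGroup Y) (actY : GQ → Y → Y)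
        (ι : Y →+ (Fin m → Submodule.torsionBy ℤ J ((p : ℤ) ^ k)))
        (π : Y →+ (ρ.V ⧸ (I • (⊤ : Submodule A ρ.V)))),
        Function.Injective ι ∧ (∀ σ y i, ι (actY σ y) i = torsAct J ((p : ℤ) ^ k) σ (ι y i)) ∧
        Function.Surjective π ∧ ∀ σ y, π (actY σ y) = ρ.levelAction I σ (π y)) :
    ρ.IsFlatAt p := by
  rw [isFlatAt_iff]
  refine ⟨hres, fun I hI => ?_⟩
  obtain ⟨k, m, Y, iY, actY, ι, π, hι, hιeq, hπ, hπeq⟩ := hlev I hI
  exact FlatModel.of_subquotient (FlatModel.pi (hJ k) m) ι hι
    (fun σ y => funext fun i => hιeq σ y i) π hπ hπeq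

end Fermat.Agent.FFJ.Glue.FlatClosure97
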