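/-
FFJ / S32 glue, brick (E) (helper68).  **Closure properties of GLOBAL flat models.**

`FlatModel p M act` (`Fermat.Agent.TW.FF.FlatModel68.FlatModel`; literally the existential in the frozen
`GaloisRepAdic.IsFlatAt` and in the frozen S19) is `Closure68.ModelOf ℤ_(p) ℚ ℚ̄ M act`.  We first extend the
generic closure toolkit of `Closure68` (`ModelOf.sub / quotient / prod`) by
* `ModelOf.of_addEquiv`, `ModelOf.of_subsingleton`,
* `ModelOf.act_add / act_zero / act_one / act_mul / finite`,
* `ModelOf.of_injective`, `ModelOf.of_surjective`, `ModelOf.pi`,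
and then specialise everything to `FlatModel p` (`p` prime):
`FlatModel.sub / quotient / prod / pi / of_injective / of_surjective / of_subsingleton /
 act_add / act_zero / act_one / act_mul / finite`,
and (for the local consumers) `LocalFlatModel.pi / of_injective / of_surjective / of_subsingleton`.
-/
import Mathlib
import Fermat.Agent.TW.FF.Closure68
import Fermat.Agent.IG.VAL.Zl13

set_option autoImplicit false

noncomputable section

namespace Fermat.Agent.FFJ.Glue.GlobalClosure68

open Fermat.Agent.S19.Shell64 Fermat.Agent.TW.FF.FunOrder68 Fermat.Agent.TW.FF.ReducedModel68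
open Fermat.Agent.TW.FF.FlatModel68 Fermat.Agent.TW.FF.Closure68

/-! ### Generic toolkit -/

section Basic

variable {R F K : Type} [CommRing R] [Field F] [Field K] [Algebra R K] [Algebra F K]

/-- transport of a model along an equivariant additive isomorphism. -/
theorem ModelOf.of_addEquiv {M N : Type} [AddCommGroup M] [AddCommGroup N]
    {actM : (K ≃ₐ[F] K) → M → M} {actN : (K ≃ₐ[F] K) → N → N} (φ : M ≃+ N)
    (hφ : ∀ σ m, φ (actM σ m) = actN σ (φ m)) (h : ModelOf R F K M actM) :
    ModelOf R F K N actN := by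
  obtain ⟨H, i1, i2, hfin, hflat, hco, e, hmul, hact⟩ := h
  refine ⟨H, i1, i2, hfin, hflat, hco, e.trans φ.toEquiv, ?_, ?_⟩
  · intro f g
    simp [hmul]
  · intro σ f g hfg
    simp [hact σ f g hfg, hφ]

/-- the trivial group is a model (of the trivial Hopf algebra `R`), for any `act`. -/
theorem ModelOf.of_subsingleton (M : Type) [AddCommGroup M] [Subsingleton M]
    (act : (K ≃ₐ[F] K) → M → M) : ModelOf R F K M act := by
  refine ⟨R, inferInstance, inferInstance, inferInstance, inferInstance, inferInstance,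
    ⟨fun _ => 0, fun _ => WithConv.toConv (Algebra.ofId R K), fun f => ?_,
      fun m => Subsingleton.elim _ _⟩, fun f g => Subsingleton.elim _ _,
    fun σ f g _ => Subsingleton.elim _ _⟩
  apply WithConv.ofConv_injective
  exact Subsingleton.elim _ _

end Basic

section Generic

variable {R F K : Type} [CommRing R] [IsDomain R] [IsPrincipalIdealRing R] [Field F] [Field K]
  [Algebra R F] [IsFractionRing R F] [Algebra F K] [Algebra R K] [IsScalarTower R F K]

omit [IsDomain R] [IsPrincipalIdealRing R] [IsFractionRing R F] in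
/-- in a model the maps `act σ` are additive. -/
theorem ModelOf.act_add {M : Type} [AddCommGroup M] {act : (K ≃ₐ[F] K) → M → M}
    (h : ModelOf R F K M act) (σ : K ≃ₐ[F] K) (m m' : M) :
    act σ (m + m') = act σ m + act σ m' := by
  obtain ⟨H, i1, i2, hfin, -, -, e, hmul, hact⟩ := h
  rw [act_eq_galSmul e act hact, act_eq_galSmul e act hact, act_eq_galSmul e act hact]
  exact galSmul_add (F := F) e hmul σ m m'

omit [IsDomain R] [IsPrincipalIdealRing R] [IsFractionRing R F] in
theorem ModelOf.act_zero {M : Type} [AddCommGroup M] {act : (K ≃ₐ[F] K) → M → M}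
    (h : ModelOf R F K M act) (σ : K ≃ₐ[F] K) : act σ 0 = 0 := by
  have h0 := ModelOf.act_add h σ 0 0
  rw [add_zero] at h0
  simpa using h0

omit [IsDomain R] [IsPrincipalIdealRing R] [IsFractionRing R F] in
/-- in a model `act` is a group action (multiplicativity). -/
theorem ModelOf.act_mul {M : Type} [AddCommGroup M] {act : (K ≃ₐ[F] K) → M → M}
    (h : ModelOf R F K M act) (σ τ : K ≃ₐ[F] K) (m : M) :
    act (σ * τ) m = act σ (act τ m) := by
  obtain ⟨H, i1, i2, hfin, -, -, e, hmul, hact⟩ := h
  rw [act_eq_galSmul e act hact, act_eq_galSmul e act hact, act_eq_galSmul e act hact]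
  exact (galMulAction (F := F) e).mul_smul σ τ m

omit [IsDomain R] [IsPrincipalIdealRing R] [IsFractionRing R F] in
/-- in a model `act 1 = id`. -/
theorem ModelOf.act_one {M : Type} [AddCommGroup M] {act : (K ≃ₐ[F] K) → M → M}
    (h : ModelOf R F K M act) (m : M) : act 1 m = m := by
  obtain ⟨H, i1, i2, hfin, -, -, e, hmul, hact⟩ := h
  rw [act_eq_galSmul e act hact]
  exact (galMulAction (F := F) e).one_smul m

/-- a model lives on a finite group. -/
theorem ModelOf.finite {M : Type} [AddCommGroup M] {act : (K ≃ₐ[F] K) → M → M}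
    (h : ModelOf R F K M act) : Finite M := by
  obtain ⟨H, i1, i2, hfin, -, -, e, hmul, hact⟩ := h
  let _ := galMulAction (F := F) e
  exact IsFunOrder.finite_carrier (isFunOrder_redAlg (F := F) e hmul)

variable (hfix : FixedFieldEqBase F K)
include hfix

/-- **models pull back along equivariant injections.** -/
theorem ModelOf.of_injective {M M' : Type} [AddCommGroup M] [AddCommGroup M']
    {act : (K ≃ₐ[F] K) → M → M} {act' : (K ≃ₐ[F] K) → M' → M'} (f : M' →+ M)
    (hf : Function.Injective f) (heq : ∀ σ m, f (act' σ m) = act σ (f m))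
    (h : ModelOf R F K M act) : ModelOf R F K M' act' := by
  let φ : M' ≃+ f.range := AddMonoidHom.ofInjective hf
  have hφ : ∀ m, ((φ m : f.range) : M) = f m := fun m => rfl
  have hsub : ModelOf R F K f.range (fun σ n => φ (act' σ (φ.symm n))) := by
    refine ModelOf.sub hfix h f.range ?_ _ ?_
    · rintro σ _ ⟨m, rfl⟩
      exact ⟨act' σ m, heq σ m⟩
    · intro σ n
      rw [hφ, heq, ← hφ, φ.apply_symm_apply]
  refine ModelOf.of_addEquiv φ.symm (fun σ n => ?_) hsub
  simp

/-- **models push forward along equivariant surjections.** -/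
theorem ModelOf.of_surjective [CharZero R] {M M' : Type} [AddCommGroup M] [AddCommGroup M']
    {act : (K ≃ₐ[F] K) → M → M} {act' : (K ≃ₐ[F] K) → M' → M'} (f : M →+ M')
    (hf : Function.Surjective f) (heq : ∀ σ m, f (act σ m) = act' σ (f m))
    (h : ModelOf R F K M act) : ModelOf R F K M' act' := by
  let φ : M ⧸ f.ker ≃+ M' := QuotientAddGroup.quotientKerEquivOfSurjective f hf
  have hφ : ∀ m : M, φ (QuotientAddGroup.mk m) = f m := fun m => rfl
  have hzero : ∀ σ, act' σ 0 = 0 := fun σ => by
    have := heq σ 0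
    rw [ModelOf.act_zero h, map_zero] at this
    exact this.symm
  have hquot : ModelOf R F K (M ⧸ f.ker) (fun σ q => φ.symm (act' σ (φ q))) := by
    refine ModelOf.quotient hfix h f.ker ?_ _ ?_
    · intro σ n hn
      rw [AddMonoidHom.mem_ker] at hn ⊢
      rw [heq, hn, hzero]
    · intro σ m
      rw [hφ, ← heq, ← hφ, φ.symm_apply_apply]
  refine ModelOf.of_addEquiv φ (fun σ q => ?_) hquot
  simp

/-- **models are closed under finite products.** -/
theorem ModelOf.pi {ι : Type} [Finite ι] {M : ι → Type} [∀ i, AddCommGroup (M i)]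
    {act : ∀ i, (K ≃ₐ[F] K) → M i → M i} (h : ∀ i, ModelOf R F K (M i) (act i)) :
    ModelOf R F K (∀ i, M i) (fun σ f i => act i σ (f i)) := by
  cases nonempty_fintype ι
  suffices hmain : ∀ (ι : Type) [Fintype ι] (M : ι → Type) [∀ i, AddCommGroup (M i)]
      (act : ∀ i, (K ≃ₐ[F] K) → M i → M i), (∀ i, ModelOf R F K (M i) (act i)) →
      ModelOf R F K (∀ i, M i) (fun σ f i => act i σ (f i)) from hmain ι M act h
  intro ι _
  refine Fintype.induction_empty_option
    (P := fun (ι : Type) _ => ∀ (M : ι → Type) [∀ i, AddCommGroup (M i)]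
      (act : ∀ i, (K ≃ₐ[F] K) → M i → M i), (∀ i, ModelOf R F K (M i) (act i)) →
      ModelOf R F K (∀ i, M i) (fun σ f i => act i σ (f i))) ?_ ?_ ?_ ι
  · intro α β _ e ih M _ act h
    have h1 := ih (fun a => M (e a)) (fun a => act (e a)) (fun a => h (e a))
    refine ModelOf.of_addEquiv (LinearEquiv.piCongrLeft ℤ M e).toAddEquiv (fun σ g => ?_) h1
    apply (LinearEquiv.piCongrLeft ℤ M e).toAddEquiv.symm.injective
    rw [AddEquiv.symm_apply_apply]
    funext a
    change act (e a) σ (g a) = act (e a) σ (Equiv.piCongrLeft M e g (e a))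
    rw [Equiv.piCongrLeft_apply_apply]
  · intro M _ act h
    exact ModelOf.of_subsingleton _ _
  · intro α _ ih M _ act h
    have h1 := ModelOf.prod hfix (h none) (ih (fun a => M (some a)) (fun a => act (some a))
      (fun a => h (some a)))
    refine ModelOf.of_addEquiv (LinearEquiv.piOptionEquivProd ℤ).toAddEquiv.symm (fun σ g => ?_) h1
    apply (LinearEquiv.piOptionEquivProd ℤ).toAddEquiv.injective
    rw [AddEquiv.apply_symm_apply]
    rfl

end Generic

/-! ### Global flat models (`ℤ_(p)`, `ℚ̄`, `G_ℚ`) -/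

section Global

variable {p : ℕ}

/-- `FlatModel p` is `ModelOf ℤ_(p) ℚ ℚ̄` (definitional). -/
theorem flatModel_iff (M : Type) [AddCommGroup M] (act : GQ → M → M) :
    FlatModel p M act ↔ ModelOf (Zloc p) ℚ (AlgebraicClosure ℚ) M act := Iff.rfl

/-- the trivial group is a flat model. -/
theorem FlatModel.of_subsingleton (M : Type) [AddCommGroup M] [Subsingleton M]
    (act : GQ → M → M) : FlatModel p M act :=
  ModelOf.of_subsingleton (R := Zloc p) (F := ℚ) M act

/-- in a flat model the maps `act σ` are additive. -/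
theorem FlatModel.act_add {M : Type} [AddCommGroup M] {act : GQ → M → M}
    (h : FlatModel p M act) (σ : GQ) (m m' : M) : act σ (m + m') = act σ m + act σ m' :=
  ModelOf.act_add (R := Zloc p) (F := ℚ) h σ m m'

theorem FlatModel.act_zero {M : Type} [AddCommGroup M] {act : GQ → M → M}
    (h : FlatModel p M act) (σ : GQ) : act σ 0 = 0 :=
  ModelOf.act_zero (R := Zloc p) (F := ℚ) h σ

/-- in a flat model `act` is multiplicative. -/
theorem FlatModel.act_mul {M : Type} [AddCommGroup M] {act : GQ → M → M}
    (h : FlatModel p M act) (σ τ : GQ) (m : M) : act (σ * τ) m = act σ (act τ m) :=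
  ModelOf.act_mul (R := Zloc p) (F := ℚ) h σ τ m

theorem FlatModel.act_one {M : Type} [AddCommGroup M] {act : GQ → M → M}
    (h : FlatModel p M act) (m : M) : act 1 m = m :=
  ModelOf.act_one (R := Zloc p) (F := ℚ) h m

/-- `ℚ̄/ℚ` is Galois (for the default `ℚ`-algebra structure on `AlgebraicClosure ℚ`). -/
theorem isGalois_Qbar : IsGalois ℚ (AlgebraicClosure ℚ) :=
  haveI hcl : IsAlgClosure ℚ (AlgebraicClosure ℚ) := by
    have h : (DivisionRing.toRatAlgebra : Algebra ℚ (AlgebraicClosure ℚ))
        = AlgebraicClosure.instAlgebra ℚ := Subsingleton.elim _ _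
    rw [h]
    infer_instance
  IsAlgClosure.isGalois ℚ (AlgebraicClosure ℚ)

/-- `ℚ̄^{G_ℚ} = ℚ`. -/
theorem fixedFieldEqBase_Qbar : FixedFieldEqBase ℚ (AlgebraicClosure ℚ) :=
  haveI := isGalois_Qbar
  fixedFieldEqBase_of_isGalois

variable [Fact p.Prime]

/-- a flat model lives on a finite group. -/
theorem FlatModel.finite {M : Type} [AddCommGroup M] {act : GQ → M → M}
    (h : FlatModel p M act) : Finite M :=
  ModelOf.finite (R := Zloc p) (F := ℚ) h

/-- **`FlatModel` restricts to `G_ℚ`-stable subgroups.** -/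
theorem FlatModel.sub {M : Type} [AddCommGroup M] {act : GQ → M → M}
    (h : FlatModel p M act) (N : AddSubgroup M) (hN : ∀ σ n, n ∈ N → act σ n ∈ N)
    (act' : GQ → N → N) (hact' : ∀ σ (n : N), (act' σ n : M) = act σ n) :
    FlatModel p N act' :=
  ModelOf.sub (R := Zloc p) (F := ℚ) fixedFieldEqBase_Qbar h N hN act' hact'

/-- **`FlatModel` passes to quotients by `G_ℚ`-stable subgroups.** -/
theorem FlatModel.quotient {M : Type} [AddCommGroup M] {act : GQ → M → M}
    (h : FlatModel p M act) (N : AddSubgroup M) (hN : ∀ σ n, n ∈ N → act σ n ∈ N)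
    (act' : GQ → M ⧸ N → M ⧸ N)
    (hact' : ∀ σ (m : M), act' σ (QuotientAddGroup.mk m) = QuotientAddGroup.mk (act σ m)) :
    FlatModel p (M ⧸ N) act' :=
  ModelOf.quotient (R := Zloc p) (F := ℚ) fixedFieldEqBase_Qbar h N hN act' hact'

/-- **`FlatModel` is closed under binary products.** -/
theorem FlatModel.prod {M₁ M₂ : Type} [AddCommGroup M₁] [AddCommGroup M₂]
    {act₁ : GQ → M₁ → M₁} {act₂ : GQ → M₂ → M₂}
    (h₁ : FlatModel p M₁ act₁) (h₂ : FlatModel p M₂ act₂) :
    FlatModel p (M₁ × M₂) (fun σ x => (act₁ σ x.1, act₂ σ x.2)) :=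
  ModelOf.prod (R := Zloc p) (F := ℚ) fixedFieldEqBase_Qbar h₁ h₂

/-- **`FlatModel` is closed under finite products.** -/
theorem FlatModel.pi {ι : Type} [Finite ι] {M : ι → Type} [∀ i, AddCommGroup (M i)]
    {act : ∀ i, GQ → M i → M i} (h : ∀ i, FlatModel p (M i) (act i)) :
    FlatModel p (∀ i, M i) (fun σ f i => act i σ (f i)) :=
  ModelOf.pi (R := Zloc p) (F := ℚ) fixedFieldEqBase_Qbar h

/-- **`FlatModel` pushes forward along equivariant surjections.** -/
theorem FlatModel.of_surjective {M M' : Type} [AddCommGroup M] [AddCommGroup M']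
    {act : GQ → M → M} {act' : GQ → M' → M'} (f : M →+ M') (hf : Function.Surjective f)
    (heq : ∀ σ m, f (act σ m) = act' σ (f m)) (h : FlatModel p M act) : FlatModel p M' act' :=
  ModelOf.of_surjective (R := Zloc p) (F := ℚ) fixedFieldEqBase_Qbar f hf heq h

/-- **`FlatModel` pulls back along equivariant injections.** -/
theorem FlatModel.of_injective {M M' : Type} [AddCommGroup M] [AddCommGroup M']
    {act : GQ → M → M} {act' : GQ → M' → M'} (f : M' →+ M) (hf : Function.Injective f)
    (heq : ∀ σ m, f (act' σ m) = act σ (f m)) (h : FlatModel p M act) : FlatModel p M' act' :=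
  ModelOf.of_injective (R := Zloc p) (F := ℚ) fixedFieldEqBase_Qbar f hf heq h

/-- **subquotients**: if `M'` receives an equivariant surjection from a stable subgroup... in the form
most convenient for consumers: `g : N →+ M'` surjective, `i : N →+ M` injective, both equivariant. -/
theorem FlatModel.of_subquotient {M N M' : Type} [AddCommGroup M] [AddCommGroup N]
    [AddCommGroup M'] {act : GQ → M → M} {actN : GQ → N → N} {act' : GQ → M' → M'}
    (i : N →+ M) (hi : Function.Injective i) (hieq : ∀ σ n, i (actN σ n) = act σ (i n))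
    (g : N →+ M') (hg : Function.Surjective g) (hgeq : ∀ σ n, g (actN σ n) = act' σ (g n))
    (h : FlatModel p M act) : FlatModel p M' act' :=
  FlatModel.of_surjective g hg hgeq (FlatModel.of_injective i hi hieq h)

end Global

/-! ### Local flat models: the same extra closure forms -/

section Local

variable {p : ℕ} [Fact p.Prime]

theorem LocalFlatModel.of_subsingleton (M : Type) [AddCommGroup M] [Subsingleton M]
    (act : GQp p → M → M) : LocalFlatModel p M act :=
  ModelOf.of_subsingleton (R := ℤ_[p]) (F := ℚ_[p]) M act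

theorem LocalFlatModel.act_zero {M : Type} [AddCommGroup M] {act : GQp p → M → M}
    (h : LocalFlatModel p M act) (τ : GQp p) : act τ 0 = 0 :=
  ModelOf.act_zero (R := ℤ_[p]) (F := ℚ_[p]) h τ

theorem LocalFlatModel.act_one {M : Type} [AddCommGroup M] {act : GQp p → M → M}
    (h : LocalFlatModel p M act) (m : M) : act 1 m = m :=
  ModelOf.act_one (R := ℤ_[p]) (F := ℚ_[p]) h m

theorem LocalFlatModel.pi {ι : Type} [Finite ι] {M : ι → Type} [∀ i, AddCommGroup (M i)]
    {act : ∀ i, GQp p → M i → M i} (h : ∀ i, LocalFlatModel p (M i) (act i)) :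
    LocalFlatModel p (∀ i, M i) (fun τ f i => act i τ (f i)) :=
  ModelOf.pi (R := ℤ_[p]) (F := ℚ_[p]) fixedFieldEqBase_of_isGalois h

theorem LocalFlatModel.of_surjective {M M' : Type} [AddCommGroup M] [AddCommGroup M']
    {act : GQp p → M → M} {act' : GQp p → M' → M'} (f : M →+ M') (hf : Function.Surjective f)
    (heq : ∀ τ m, f (act τ m) = act' τ (f m)) (h : LocalFlatModel p M act) :
    LocalFlatModel p M' act' :=
  ModelOf.of_surjective (R := ℤ_[p]) (F := ℚ_[p]) fixedFieldEqBase_of_isGalois f hf heq h

theorem LocalFlatModel.of_injective {M M' : Type} [AddCommGroup M] [AddCommGroup M']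
    {act : GQp p → M → M} {act' : GQp p → M' → M'} (f : M' →+ M) (hf : Function.Injective f)
    (heq : ∀ τ m, f (act' τ m) = act τ (f m)) (h : LocalFlatModel p M act) :
    LocalFlatModel p M' act' :=
  ModelOf.of_injective (R := ℤ_[p]) (F := ℚ_[p]) fixedFieldEqBase_of_isGalois f hf heq h

theorem LocalFlatModel.of_subquotient {M N M' : Type} [AddCommGroup M] [AddCommGroup N]
    [AddCommGroup M'] {act : GQp p → M → M} {actN : GQp p → N → N} {act' : GQp p → M' → M'}
    (i : N →+ M) (hi : Function.Injective i) (hieq : ∀ τ n, i (actN τ n) = act τ (i n))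
    (g : N →+ M') (hg : Function.Surjective g) (hgeq : ∀ τ n, g (actN τ n) = act' τ (g n))
    (h : LocalFlatModel p M act) : LocalFlatModel p M' act' :=
  LocalFlatModel.of_surjective g hg hgeq (LocalFlatModel.of_injective i hi hieq h)

end Local

end Fermat.Agent.FFJ.Glue.GlobalClosure68
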