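/-
FFJ / S32 glue, lemma (SAT) (helper68).  Mathlib only.

`exists_pow_of_finite_quotient`: for a noetherian local ring `T`, a finite faithful `T`-module `X` and an
ideal `I` of finite index, there is `n` such that every `a : T` with `a X ⊆ 𝔪ⁿ X` lies in `I`.
(Artin–Rees for the image of `T ↪ X^r`, `a ↦ (a xᵢ)ᵢ`, plus `𝔪ᵏ ⊆ I`.)
-/
import Mathlib

set_option autoImplicit false

namespace Fermat.Agent.FFJ.Glue.Sat68

open IsLocalRing

/-- an ideal of finite index in a local ring contains a power of the maximal ideal. -/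
theorem exists_maximalIdeal_pow_le {T : Type*} [CommRing T] [IsLocalRing T] (I : Ideal T)
    [Finite (T ⧸ I)] : ∃ k, maximalIdeal T ^ k ≤ I :=
  exists_maximalIdeal_pow_le_of_isArtinianRing_quotient I

/-- a tuple with all components in `I X` lies in `I X^ι`. -/
theorem mem_smul_top_pi {T X : Type*} [CommRing T] [AddCommGroup X] [Module T X] {ι : Type*}
    [Fintype ι] [DecidableEq ι] (I : Ideal T) (f : ι → X)
    (hf : ∀ i, f i ∈ I • (⊤ : Submodule T X)) : f ∈ I • (⊤ : Submodule T (ι → X)) := by
  have hsum : f = ∑ i, LinearMap.single T (fun _ : ι => X) i (f i) := by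
    funext k
    simp [Finset.sum_apply, Pi.single_apply]
  rw [hsum]
  refine Submodule.sum_mem _ fun i _ => ?_
  have h := Submodule.mem_map_of_mem (f := LinearMap.single T (fun _ : ι => X) i) (hf i)
  rw [Submodule.map_smul''] at h
  exact Submodule.smul_mono le_rfl le_top h

/-- **(SAT), module form**: for an injective linear map `f : V → Y` into a finite module over the
noetherian local ring `T` and an ideal `I` of finite index, `f v ∈ 𝔪ⁿ Y` forces `v ∈ I V` for `n`
large (Artin–Rees for `range f`). -/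
theorem exists_pow_forall_mem_smul {T : Type*} [CommRing T] [IsLocalRing T] [IsNoetherianRing T]
    {V Y : Type*} [AddCommGroup V] [Module T V] [AddCommGroup Y] [Module T Y] [Module.Finite T Y]
    (f : V →ₗ[T] Y) (hf : Function.Injective f) (I : Ideal T) [Finite (T ⧸ I)] :
    ∃ n, ∀ v : V, f v ∈ maximalIdeal T ^ n • (⊤ : Submodule T Y) →
      v ∈ I • (⊤ : Submodule T V) := by
  obtain ⟨c, hc⟩ := Ideal.exists_pow_inf_eq_pow_smul (maximalIdeal T) (LinearMap.range f)
  obtain ⟨k, hk⟩ := exists_maximalIdeal_pow_le I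
  refine ⟨k + c, fun v hv => ?_⟩
  have h2 : f v ∈ maximalIdeal T ^ (k + c) • (⊤ : Submodule T Y) ⊓ LinearMap.range f :=
    ⟨hv, LinearMap.mem_range_self f v⟩
  rw [hc (k + c) (Nat.le_add_left c k), Nat.add_sub_cancel] at h2
  have h3 : f v ∈ maximalIdeal T ^ k • LinearMap.range f :=
    Submodule.smul_mono le_rfl inf_le_right h2
  rw [← Submodule.map_top, ← Submodule.map_smul''] at h3
  obtain ⟨v', hv', hvv'⟩ := h3
  have : v = v' := (hf hvv').symm
  rw [this]
  exact Submodule.smul_mono hk le_rfl hv'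

/-- **(SAT)**: if `X` is a finite faithful module over the noetherian local ring `T` and `T ⧸ I` is
finite, then for `n` large, `a X ⊆ 𝔪ⁿ X` forces `a ∈ I`. -/
theorem exists_pow_of_finite_quotient {T : Type*} [CommRing T] [IsLocalRing T] [IsNoetherianRing T]
    {X : Type*} [AddCommGroup X] [Module T X] [Module.Finite T X]
    (hX : ∀ a : T, (∀ x : X, a • x = 0) → a = 0) (I : Ideal T) [Finite (T ⧸ I)] :
    ∃ n, ∀ a : T, (∀ x : X, a • x ∈ maximalIdeal T ^ n • (⊤ : Submodule T X)) → a ∈ I := by
  classical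
  obtain ⟨r, x, hx⟩ := Module.Finite.exists_fin (R := T) (M := X)
  -- the embedding `T ↪ X^r`
  let j : T →ₗ[T] (Fin r → X) := LinearMap.pi fun i => LinearMap.toSpanSingleton T X (x i)
  have hj : ∀ a i, j a i = a • x i := fun a i => rfl
  have hjinj : Function.Injective j := by
    rw [← LinearMap.ker_eq_bot, LinearMap.ker_eq_bot']
    intro a ha
    apply hX
    intro y
    have hy : y ∈ Submodule.span T (Set.range x) := by rw [hx]; trivial
    induction hy using Submodule.span_induction with
    | mem z hz =>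
      obtain ⟨i, rfl⟩ := hz
      rw [← hj, ha]; rfl
    | zero => simp
    | add u v _ _ hu hv => rw [smul_add, hu, hv, add_zero]
    | smul c u _ hu => rw [smul_comm, hu, smul_zero]
  obtain ⟨c, hc⟩ := Ideal.exists_pow_inf_eq_pow_smul (maximalIdeal T) (LinearMap.range j)
  obtain ⟨k, hk⟩ := exists_maximalIdeal_pow_le I
  refine ⟨k + c, fun a ha => ?_⟩
  -- `j a ∈ 𝔪^(k+c) X^r ∩ range j`
  have h1 : j a ∈ maximalIdeal T ^ (k + c) • (⊤ : Submodule T (Fin r → X)) :=
    mem_smul_top_pi _ _ fun i => by rw [hj]; exact ha (x i)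
  have h2 : j a ∈ maximalIdeal T ^ (k + c) • (⊤ : Submodule T (Fin r → X)) ⊓ LinearMap.range j :=
    ⟨h1, LinearMap.mem_range_self j a⟩
  rw [hc (k + c) (Nat.le_add_left c k), Nat.add_sub_cancel] at h2
  have h3 : j a ∈ maximalIdeal T ^ k • LinearMap.range j :=
    Submodule.smul_mono le_rfl inf_le_right h2
  rw [← Submodule.map_top, ← Submodule.map_smul''] at h3
  obtain ⟨a', ha', haa'⟩ := h3
  rw [smul_eq_mul, Ideal.mul_top] at ha'
  have : a = a' := (hjinj haa').symm
  rw [this]
  exact hk ha'

end Fermat.Agent.FFJ.Glue.Sat68
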