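/-
FFJ / S32-glue (helper81): for a residually absolutely irreducible `ρ : G_ℚ → GL₂(A)` over a local
ring `A`, the `A`-span of the image of `ρ` is the whole endomorphism algebra (Burnside + Nakayama).
This is the hypothesis `hspan` of `BLR81.exists_equivariant_map`.
-/
import Mathlib
import Fermat.Prelude.Def_GaloisRep_Adic
import Fermat.Agent.ES.ALG31.TraceRigid13

set_option autoImplicit false

noncomputable section

namespace Fermat.Agent.FFJ.Glue.SpanTop81

open Module TensorProduct IsLocalRing Fermat.Agent.ES.ALG31.TraceRigid13

section Local

variable {A : Type*} [CommRing A] [IsLocalRing A] {V : Type*} [AddCommGroup V] [Module A V]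

/-- an endomorphism of a free module of rank two which is residually zero lies in `𝔪 • End V`. -/
theorem mem_smul_top_of_baseChange_eq_zero (b : Basis (Fin 2) A V) (Z : End A V)
    (hZ : Z.baseChange (ResidueField A) = 0) :
    Z ∈ (maximalIdeal A) • (⊤ : Submodule A (End A V)) := by
  classical
  set M := LinearMap.toMatrix b b Z with hM
  let bk := Algebra.TensorProduct.basis (ResidueField A) b
  have hmap : M.map (algebraMap A (ResidueField A)) = 0 := by
    rw [hM, ← LinearMap.toMatrix_baseChange, hZ, map_zero]
  have hent : ∀ i j, M i j ∈ maximalIdeal A := by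
    intro i j
    have h1 := congrFun (congrFun hmap i) j
    rw [Matrix.map_apply, Matrix.zero_apply] at h1
    rw [← residue_eq_zero_iff]
    exact h1
  have hZM : Z = Matrix.toLin b b M := by rw [hM, Matrix.toLin_toMatrix]
  rw [hZM, Matrix.matrix_eq_sum_single M, map_sum]
  refine Submodule.sum_mem _ fun i _ => ?_
  rw [map_sum]
  refine Submodule.sum_mem _ fun j _ => ?_
  have : Matrix.single i j (M i j) = M i j • Matrix.single i j (1 : A) := by
    rw [Matrix.smul_single, smul_eq_mul, mul_one]
  rw [this, map_smul]
  exact Submodule.smul_mem_smul (hent i j) Submodule.mem_top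

variable {G : Type*} [Monoid G] (ρ : G →* End A V)

/-- **Nakayama**: if the residual representation spans the residual endomorphism algebra, `ρ` spans
`End_A V`. -/
theorem span_range_eq_top_of_residual (b : Basis (Fin 2) A V)
    (hspan : Submodule.span (ResidueField A)
      (Set.range fun g => (ρ g).baseChange (ResidueField A)) = ⊤) :
    Submodule.span A (Set.range ρ) = ⊤ := by
  have hfin : Module.Finite A (End A V) := by
    have := Module.Finite.of_basis b
    have := Module.Free.of_basis b
    infer_instance
  refine top_le_iff.mp ?_
  refine Submodule.le_of_le_smul_of_le_jacobson_bot (I := maximalIdeal A) hfin.fg_top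
    (maximalIdeal_le_jacobson ⊥) ?_
  intro Y _
  obtain ⟨X, hX, hXE⟩ := exists_lift_of_mem_span ρ (E := Y.baseChange (ResidueField A))
    (by rw [hspan]; exact Submodule.mem_top)
  have hZ : (Y - X).baseChange (ResidueField A) = 0 := by
    rw [LinearMap.baseChange_sub, hXE]
    exact sub_self (LinearMap.baseChange (ResidueField A) Y)
  have := mem_smul_top_of_baseChange_eq_zero b (Y - X) hZ
  have hY : Y = X + (Y - X) := by abel
  rw [hY]
  exact Submodule.add_mem_sup hX this

end Local

/-- the image of a residually absolutely irreducible `ρ` spans `End_A V`. -/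
theorem span_range_eq_top {A : Type} [CommRing A] [IsLocalRing A] (ρ : GaloisRepAdic A)
    (habs : ρ.residual.IsAbsolutelyIrreducible) :
    Submodule.span A (Set.range ρ.ρ) = ⊤ :=
  span_range_eq_top_of_residual ρ.ρ (Module.finBasisOfFinrankEq A ρ.V ρ.finrank_eq)
    (residual_span_eq_top ρ habs)

end Fermat.Agent.FFJ.Glue.SpanTop81
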