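/-
FFJ / S32-glue (helper81), brick (F), abstract part: **flatness of `ρ` from a faithful
Cayley–Hamilton module with flat levels.**

`ρ : G_ℚ → GL₂(T)` residually absolutely irreducible over a noetherian local ring `T` with `2 ∈ Tˣ`;
`X` a finitely generated faithful `T`-module with a `T`-linear `G_ℚ`-action `σ` satisfying the
Cayley–Hamilton relations of `ρ`, all of whose levels `X / 𝔪ⁿ X` carry a flat model.  Then `ρ` is
flat: `V / I V` is an equivariant quotient of the image of `V` in `(X / 𝔪ⁿ X)^r`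
(Boston–Lenstra–Ribet `BLR81` + Artin–Rees `Sat68` + closure properties `GlobalClosure68`).
-/
import Mathlib
import Fermat.Prelude.Def_GaloisRep_Flat
import Fermat.Agent.TW.FF.FlatModel68
import Fermat.Agent.FFJ.Glue.BLR81
import Fermat.Agent.FFJ.Glue.SpanTop81
import Fermat.Agent.FFJ.Glue.Sat68
import Fermat.Agent.FFJ.Glue.GlobalClosure68

set_option autoImplicit false

noncomputable section

namespace Fermat.Agent.FFJ.Glue.FlatOfQuot81

open Fermat.Agent.TW.FF.FlatModel68 IsLocalRing

/-! ### Levels of a module with an action -/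

section LevelRep

variable {T : Type*} [CommRing T] {X : Type*} [AddCommGroup X] [Module T X] {G : Type*} [Group G]

theorem smul_top_le_comap (I : Ideal T) (f : Module.End T X) :
    I • (⊤ : Submodule T X) ≤ (I • (⊤ : Submodule T X)).comap f := by
  rw [← Submodule.map_le_iff_le_comap, Submodule.map_smul'']
  exact Submodule.smul_mono le_rfl le_top

/-- the action on the level `X / I X`. -/
def levelRep (σ : G →* Module.End T X) (I : Ideal T) :
    G →* Module.End T (X ⧸ (I • (⊤ : Submodule T X))) where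
  toFun g := Submodule.mapQ _ _ (σ g) (smul_top_le_comap I _)
  map_one' := by
    refine Submodule.linearMap_qext _ (LinearMap.ext fun m => ?_)
    simp [Submodule.mapQ_apply]
  map_mul' g h := by
    refine Submodule.linearMap_qext _ (LinearMap.ext fun m => ?_)
    simp [Submodule.mapQ_apply]

theorem levelRep_mk (σ : G →* Module.End T X) (I : Ideal T) (g : G) (x : X) :
    levelRep σ I g ((I • (⊤ : Submodule T X)).mkQ x) = (I • (⊤ : Submodule T X)).mkQ (σ g x) :=
  rfl

/-- quadratic relations pass to the levels. -/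
theorem levelRep_quad (σ : G →* Module.End T X) (I : Ideal T) (g : G) (a b : T)
    (h : σ g * σ g - a • σ g + b • (1 : Module.End T X) = 0) :
    levelRep σ I g * levelRep σ I g - a • levelRep σ I g
      + b • (1 : Module.End T (X ⧸ (I • (⊤ : Submodule T X)))) = 0 := by
  refine Submodule.linearMap_qext _ (LinearMap.ext fun w => ?_)
  have h' := congrArg (fun F : Module.End T X => (I • (⊤ : Submodule T X)).mkQ (F w)) h
  simp only [LinearMap.add_apply, LinearMap.sub_apply, Module.End.mul_apply,
    LinearMap.smul_apply, Module.End.one_apply, LinearMap.zero_apply, map_add, map_sub,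
    map_smul, map_zero] at h'
  simp only [LinearMap.comp_apply, LinearMap.add_apply, LinearMap.sub_apply,
    Module.End.mul_apply, LinearMap.smul_apply, Module.End.one_apply, LinearMap.zero_apply,
    levelRep_mk]
  exact h'

end LevelRep

/-! ### The main theorem -/

section Main

variable {T : Type} [CommRing T] [IsLocalRing T] [IsNoetherianRing T]

/-- **flatness from a faithful Cayley–Hamilton module with flat levels.** -/
theorem isFlatAt_of_module {p : ℕ} [Fact p.Prime] (rho : GaloisRepAdic T)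
    (habs : rho.residual.IsAbsolutelyIrreducible) (h2 : IsUnit (2 : T))
    (hfin : Finite (ResidueField T))
    {X : Type} [AddCommGroup X] [Module T X] [Module.Finite T X]
    (hX : ∀ a : T, (∀ x : X, a • x = 0) → a = 0)
    (σ : GQ →* Module.End T X)
    (hCH : ∀ g, σ g * σ g - LinearMap.trace T rho.V (rho.ρ g) • σ g
      + LinearMap.det (rho.ρ g) • (1 : Module.End T X) = 0)
    (hlvl : ∀ n : ℕ, FlatModel p (X ⧸ ((maximalIdeal T ^ n) • (⊤ : Submodule T X)))
      (fun g => levelRep σ (maximalIdeal T ^ n) g)) :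
    rho.IsFlatAt p := by
  refine ⟨hfin, fun I hI => ?_⟩
  change FlatModel p (rho.V ⧸ (I • (⊤ : Submodule T rho.V))) (fun g => rho.levelAction I g)
  haveI := hI
  obtain ⟨n, hn⟩ := Fermat.Agent.FFJ.Glue.Sat68.exists_pow_of_finite_quotient hX I
  set 𝔞 : Ideal T := maximalIdeal T ^ n with h𝔞
  let σB := levelRep σ 𝔞
  have hCHB : ∀ g, σB g * σB g - LinearMap.trace T rho.V (rho.ρ g) • σB g
      + LinearMap.det (rho.ρ g) • (1 : Module.End T (X ⧸ (𝔞 • (⊤ : Submodule T X)))) = 0 :=
    fun g => levelRep_quad σ 𝔞 g _ _ (hCH g)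
  let b : Module.Basis (Fin 2) T rho.V := Module.finBasisOfFinrankEq T rho.V rho.finrank_eq
  obtain ⟨r, F, hFeq, hFker⟩ := Fermat.Agent.FFJ.Glue.BLR81.exists_equivariant_map rho.ρ σB b h2
    (Fermat.Agent.FFJ.Glue.SpanTop81.span_range_eq_top rho habs) hCHB
  -- the kernel of `F` is contained in `I V`
  have hker : ∀ v, F v = 0 → v ∈ I • (⊤ : Submodule T rho.V) := by
    intro v hv
    have hcoord : ∀ i, b.repr v i ∈ I := fun i => hn _ fun x => by
      have h1 := (hFker v).mp hv i ((𝔞 • (⊤ : Submodule T X)).mkQ x)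
      rw [← map_smul, Submodule.mkQ_apply, Submodule.Quotient.mk_eq_zero] at h1
      exact h1
    rw [← b.sum_repr v]
    exact Submodule.sum_mem _ fun i _ => Submodule.smul_mem_smul (hcoord i) Submodule.mem_top
  -- flat model on `(X / 𝔞 X)^r`
  have hM1 : FlatModel p (Fin r → X ⧸ (𝔞 • (⊤ : Submodule T X))) (fun g f i => σB g (f i)) :=
    Fermat.Agent.FFJ.Glue.GlobalClosure68.FlatModel.pi (fun _ => hlvl n)
  -- the image of `V`
  let Nsub : AddSubgroup (Fin r → X ⧸ (𝔞 • (⊤ : Submodule T X))) := F.toAddMonoidHom.range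
  have hN : ∀ (g : GQ) (f : Fin r → X ⧸ (𝔞 • (⊤ : Submodule T X))), f ∈ Nsub →
      (fun i => σB g (f i)) ∈ Nsub := by
    rintro g _ ⟨v, rfl⟩
    exact ⟨rho.ρ g v, funext fun i => hFeq g v i⟩
  let actN : GQ → Nsub → Nsub := fun g f => ⟨fun i => σB g (f.1 i), hN g f.1 f.2⟩
  have hNsub : FlatModel p Nsub actN :=
    Fermat.Agent.FFJ.Glue.GlobalClosure68.FlatModel.sub hM1 Nsub hN actN (fun _ _ => rfl)
  -- the surjection onto `V / I V`
  let F' : rho.V →+ Nsub := F.toAddMonoidHom.rangeRestrict
  have hF'surj : Function.Surjective F' := F.toAddMonoidHom.rangeRestrict_surjective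
  let q : rho.V →+ (rho.V ⧸ (I • (⊤ : Submodule T rho.V))) :=
    (I • (⊤ : Submodule T rho.V)).mkQ.toAddMonoidHom
  have hkerle : F'.ker ≤ q.ker := fun v hv => by
    rw [AddMonoidHom.mem_ker] at hv ⊢
    have h0 : F v = 0 := congrArg Subtype.val hv
    exact (Submodule.Quotient.mk_eq_zero _).mpr (hker v h0)
  let g' : Nsub →+ (rho.V ⧸ (I • (⊤ : Submodule T rho.V))) :=
    (F'.liftOfRightInverse (Function.surjInv hF'surj) (Function.rightInverse_surjInv hF'surj))
      ⟨q, hkerle⟩
  have hg' : ∀ v, g' (F' v) = q v := fun v =>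
    AddMonoidHom.liftOfRightInverse_comp_apply F' _ (Function.rightInverse_surjInv hF'surj)
      ⟨q, hkerle⟩ v
  refine Fermat.Agent.FFJ.Glue.GlobalClosure68.FlatModel.of_surjective g' ?_ ?_ hNsub
  · intro w
    obtain ⟨v, rfl⟩ := (I • (⊤ : Submodule T rho.V)).mkQ_surjective w
    exact ⟨F' v, hg' v⟩
  · intro g f
    obtain ⟨v, rfl⟩ := hF'surj f
    have e : actN g (F' v) = F' (rho.ρ g v) :=
      Subtype.ext (funext fun i => (hFeq g v i).symm)
    rw [e, hg', hg']
    rfl

end Main

end Fermat.Agent.FFJ.Glue.FlatOfQuot81
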