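/-
FFJ / S32-glue (helper81), brick (D), abstract part: the **eigen-quotient** of a base-changed
representation.

`𝒯` an `R₀`-module with a representation `r : G → End 𝒯` and commuting operators `t i`;
`T` an `R₀`-algebra, `c i : T`.  `Q := (T ⊗ 𝒯) / span {(t i ⊗ 1) m - c i • m}` is a `T`-module with a
`T`-linear `G`-action `sig`, on which `t i` acts by `c i`.  We transfer congruences (`sig_sub_mem`),
Eichler–Shimura type quadratic relations (`sig_quad`), and exhibit every finite level `Q / 𝔞 Q` as an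
equivariant quotient of a finite power of `𝒯 / r₀ 𝒯` (`chainMap`).

Mathlib only.
-/
import Mathlib

set_option autoImplicit false

noncomputable section

namespace Fermat.Agent.FFJ.Glue.TateQuot81

open TensorProduct

section Defs

variable {R₀ : Type*} [CommRing R₀] {T : Type*} [CommRing T] [Algebra R₀ T]
  {𝒯 : Type*} [AddCommGroup 𝒯] [Module R₀ 𝒯] {G : Type*} [Group G] {ι : Type*}
  (t : ι → Module.End R₀ 𝒯) (c : ι → T)

/-- the relations `(t i ⊗ 1) m = c i • m`. -/
def rel : Submodule T (T ⊗[R₀] 𝒯) :=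
  Submodule.span T {x | ∃ (i : ι) (m : T ⊗[R₀] 𝒯), x = (t i).baseChange T m - c i • m}

/-- the eigen-quotient. -/
abbrev Q : Type _ := (T ⊗[R₀] 𝒯) ⧸ rel t c

theorem mk_baseChange (i : ι) (m : T ⊗[R₀] 𝒯) :
    (rel t c).mkQ ((t i).baseChange T m) = c i • (rel t c).mkQ m := by
  rw [← map_smul, ← sub_eq_zero, ← map_sub]
  exact (Submodule.Quotient.mk_eq_zero _).mpr (Submodule.subset_span ⟨i, m, rfl⟩)

variable (r : G →* Module.End R₀ 𝒯) (hcomm : ∀ g i, Commute (r g) (t i))

include hcomm in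
theorem rel_le_comap (g : G) : rel t c ≤ (rel t c).comap ((r g).baseChange T) := by
  rw [rel, Submodule.span_le]
  rintro _ ⟨i, m, rfl⟩
  have h1 : (r g).baseChange T ((t i).baseChange T m)
      = (t i).baseChange T ((r g).baseChange T m) := by
    rw [← Module.End.mul_apply, ← Module.End.mul_apply, ← LinearMap.baseChange_mul,
      ← LinearMap.baseChange_mul, (hcomm g i).eq]
  rw [SetLike.mem_coe, Submodule.mem_comap, map_sub, map_smul, h1]
  exact Submodule.subset_span ⟨i, _, rfl⟩

/-- the `G`-action on the eigen-quotient. -/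
def sig : G →* Module.End T (Q t c) where
  toFun g := Submodule.mapQ _ _ ((r g).baseChange T) (rel_le_comap t c r hcomm g)
  map_one' := by
    apply Submodule.linearMap_qext
    ext m
    simp [Submodule.mapQ_apply]
  map_mul' g h := by
    apply Submodule.linearMap_qext
    ext m
    simp [Submodule.mapQ_apply, LinearMap.baseChange_mul]

theorem sig_mk (g : G) (m : T ⊗[R₀] 𝒯) :
    sig t c r hcomm g ((rel t c).mkQ m) = (rel t c).mkQ ((r g).baseChange T m) := rfl

end Defs

/-! ### Transfer of congruences and of quadratic relations -/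

section Transfer

variable {R₀ : Type*} [CommRing R₀] {T : Type*} [CommRing T] [Algebra R₀ T]
  {𝒯 : Type*} [AddCommGroup 𝒯] [Module R₀ 𝒯] {G : Type*} [Group G] {ι : Type*}
  (t : ι → Module.End R₀ 𝒯) (c : ι → T)
  (r : G →* Module.End R₀ 𝒯) (hcomm : ∀ g i, Commute (r g) (t i))

/-- a linear map sends `I • ⊤` into `I • ⊤`. -/
theorem map_mem_smul_top {M M' : Type*} [AddCommGroup M] [Module T M] [AddCommGroup M']
    [Module T M'] (f : M →ₗ[T] M') (I : Ideal T) {x : M}
    (hx : x ∈ I • (⊤ : Submodule T M)) : f x ∈ I • (⊤ : Submodule T M') := by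
  have h : (I • (⊤ : Submodule T M)).map f ≤ I • (⊤ : Submodule T M') := by
    rw [Submodule.map_smul'']
    exact Submodule.smul_mono le_rfl le_top
  exact h (Submodule.mem_map_of_mem hx)

theorem baseChange_sub_mem (I : Ideal T) (f : Module.End R₀ 𝒯) (r₀ : R₀)
    (hr : algebraMap R₀ T r₀ ∈ I) (hf : ∀ x, ∃ y, f x - x = r₀ • y) (m : T ⊗[R₀] 𝒯) :
    f.baseChange T m - m ∈ I • (⊤ : Submodule T (T ⊗[R₀] 𝒯)) := by
  induction m using TensorProduct.induction_on with
  | zero => simp
  | tmul a x =>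
    obtain ⟨y, hy⟩ := hf x
    have e : f.baseChange T (a ⊗ₜ[R₀] x) - a ⊗ₜ[R₀] x
        = algebraMap R₀ T r₀ • (a ⊗ₜ[R₀] y) := by
      rw [LinearMap.baseChange_tmul, ← TensorProduct.tmul_sub, hy, TensorProduct.tmul_smul,
        algebraMap_smul]
    rw [e]
    exact Submodule.smul_mem_smul hr Submodule.mem_top
  | add x y hx hy =>
    have e : f.baseChange T (x + y) - (x + y)
        = (f.baseChange T x - x) + (f.baseChange T y - y) := by
      rw [map_add]; abel
    rw [e]
    exact Submodule.add_mem _ hx hy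

/-- congruences `r g ≡ 1 mod r₀` pass to the eigen-quotient. -/
theorem sig_sub_mem (I : Ideal T) (g : G) (r₀ : R₀) (hr : algebraMap R₀ T r₀ ∈ I)
    (hf : ∀ x, ∃ y, r g x - x = r₀ • y) (w : Q t c) :
    sig t c r hcomm g w - w ∈ I • (⊤ : Submodule T (Q t c)) := by
  obtain ⟨m, rfl⟩ := (rel t c).mkQ_surjective w
  rw [sig_mk, ← map_sub]
  exact map_mem_smul_top _ I (baseChange_sub_mem I (r g) r₀ hr hf m)

/-- an Eichler–Shimura relation on `𝒯` gives the quadratic relation with eigenvalue `c i` on the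
eigen-quotient. -/
theorem sig_quad (φ : G) (i : ι) (ℓ : ℕ)
    (h : r φ * r φ - t i * r φ + (ℓ : R₀) • (1 : Module.End R₀ 𝒯) = 0) :
    sig t c r hcomm φ * sig t c r hcomm φ - c i • sig t c r hcomm φ
      + (ℓ : T) • (1 : Module.End T (Q t c)) = 0 := by
  refine Submodule.linearMap_qext _ (LinearMap.ext fun m => ?_)
  simp only [LinearMap.comp_apply, LinearMap.add_apply, LinearMap.sub_apply,
    Module.End.mul_apply, LinearMap.smul_apply, Module.End.one_apply, LinearMap.zero_apply,
    sig_mk]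
  have e : (r φ).baseChange T ((r φ).baseChange T m) - (t i).baseChange T ((r φ).baseChange T m)
      + (ℓ : T) • m = (r φ * r φ - t i * r φ + (ℓ : R₀) • (1 : Module.End R₀ 𝒯)).baseChange T m := by
    rw [LinearMap.baseChange_add, LinearMap.baseChange_sub, LinearMap.baseChange_smul,
      LinearMap.baseChange_mul, LinearMap.baseChange_mul, LinearMap.baseChange_one]
    simp only [LinearMap.add_apply, LinearMap.sub_apply, Module.End.mul_apply,
      LinearMap.smul_apply, Module.End.one_apply, Nat.cast_smul_eq_nsmul]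
  rw [← mk_baseChange, ← map_smul, ← map_sub, ← map_add, e, h, LinearMap.baseChange_zero,
    LinearMap.zero_apply, map_zero]

end Transfer

/-! ### Finite levels -/

section Level

variable {R₀ : Type*} [CommRing R₀] {T : Type*} [CommRing T] [Algebra R₀ T]
  {𝒯 : Type*} [AddCommGroup 𝒯] [Module R₀ 𝒯] {G : Type*} [Group G] {ι : Type*}
  (t : ι → Module.End R₀ 𝒯) (c : ι → T)
  (r : G →* Module.End R₀ 𝒯) (hcomm : ∀ g i, Commute (r g) (t i)) (𝔞 : Ideal T)

/-- the level `Q / 𝔞 Q`. -/
abbrev Lvl : Type _ := Q t c ⧸ (𝔞 • (⊤ : Submodule T (Q t c)))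

theorem smul_top_le_comap {M : Type*} [AddCommGroup M] [Module T M] (I : Ideal T)
    (f : Module.End T M) :
    I • (⊤ : Submodule T M) ≤ (I • (⊤ : Submodule T M)).comap f := fun _ hx =>
  map_mem_smul_top f I hx

/-- the `G`-action on a level. -/
def sigL : G →* Module.End T (Lvl t c 𝔞) where
  toFun g := Submodule.mapQ _ _ (sig t c r hcomm g) (smul_top_le_comap 𝔞 _)
  map_one' := by
    refine Submodule.linearMap_qext _ (LinearMap.ext fun m => ?_)
    simp [Submodule.mapQ_apply]
  map_mul' g h := by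
    refine Submodule.linearMap_qext _ (LinearMap.ext fun m => ?_)
    simp [Submodule.mapQ_apply]

theorem sigL_mk (g : G) (w : Q t c) :
    sigL t c r hcomm 𝔞 g ((𝔞 • (⊤ : Submodule T (Q t c))).mkQ w)
      = (𝔞 • (⊤ : Submodule T (Q t c))).mkQ (sig t c r hcomm g w) := rfl

/-- quadratic relations pass to the levels. -/
theorem sigL_quad (g : G) (a b : T)
    (h : sig t c r hcomm g * sig t c r hcomm g - a • sig t c r hcomm g
      + b • (1 : Module.End T (Q t c)) = 0) :
    sigL t c r hcomm 𝔞 g * sigL t c r hcomm 𝔞 g - a • sigL t c r hcomm 𝔞 g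
      + b • (1 : Module.End T (Lvl t c 𝔞)) = 0 := by
  refine Submodule.linearMap_qext _ (LinearMap.ext fun w => ?_)
  have h' := congrArg (fun F : Module.End T (Q t c) =>
    (𝔞 • (⊤ : Submodule T (Q t c))).mkQ (F w)) h
  simp only [LinearMap.add_apply, LinearMap.sub_apply, Module.End.mul_apply,
    LinearMap.smul_apply, Module.End.one_apply, LinearMap.zero_apply, map_add, map_sub,
    map_smul, map_zero] at h'
  simp only [LinearMap.comp_apply, LinearMap.add_apply, LinearMap.sub_apply,
    Module.End.mul_apply, LinearMap.smul_apply, Module.End.one_apply, LinearMap.zero_apply,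
    sigL_mk]
  exact h'

variable [Fintype (T ⧸ 𝔞)]

/-- the presentation of a level by a finite power of `𝒯`. -/
def chainMap : ((T ⧸ 𝔞) → 𝒯) →+ Lvl t c 𝔞 where
  toFun f := ∑ b : T ⧸ 𝔞, (𝔞 • (⊤ : Submodule T (Q t c))).mkQ
    ((Quotient.out b : T) • (rel t c).mkQ ((1 : T) ⊗ₜ[R₀] f b))
  map_zero' := by simp
  map_add' f f' := by
    simp only [Pi.add_apply, TensorProduct.tmul_add, map_add, smul_add, Finset.sum_add_distrib]

theorem chainMap_apply (f : (T ⧸ 𝔞) → 𝒯) :
    chainMap t c 𝔞 f = ∑ b : T ⧸ 𝔞, (𝔞 • (⊤ : Submodule T (Q t c))).mkQ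
      ((Quotient.out b : T) • (rel t c).mkQ ((1 : T) ⊗ₜ[R₀] f b)) := rfl

theorem chainMap_equivariant (g : G) (f : (T ⧸ 𝔞) → 𝒯) :
    chainMap t c 𝔞 (fun b => r g (f b)) = sigL t c r hcomm 𝔞 g (chainMap t c 𝔞 f) := by
  rw [chainMap_apply, chainMap_apply, map_sum]
  refine Finset.sum_congr rfl fun b _ => ?_
  rw [sigL_mk, map_smul (sig t c r hcomm g), sig_mk, LinearMap.baseChange_tmul]

theorem chainMap_eq_zero (r₀ : R₀) (hr : algebraMap R₀ T r₀ ∈ 𝔞) (f : (T ⧸ 𝔞) → 𝒯)
    (hf : ∀ b, ∃ y, f b = r₀ • y) : chainMap t c 𝔞 f = 0 := by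
  rw [chainMap_apply]
  refine Finset.sum_eq_zero fun b _ => ?_
  obtain ⟨y, hy⟩ := hf b
  rw [Submodule.mkQ_apply, Submodule.Quotient.mk_eq_zero, hy, TensorProduct.tmul_smul,
    ← algebraMap_smul T r₀, map_smul, smul_comm]
  exact Submodule.smul_mem_smul hr Submodule.mem_top

theorem chainMap_surjective : Function.Surjective (chainMap t c 𝔞) := by
  classical
  intro w
  obtain ⟨w', rfl⟩ := (𝔞 • (⊤ : Submodule T (Q t c))).mkQ_surjective w
  obtain ⟨m, rfl⟩ := (rel t c).mkQ_surjective w'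
  induction m using TensorProduct.induction_on with
  | zero => exact ⟨0, by simp⟩
  | tmul a x =>
    refine ⟨Pi.single (Ideal.Quotient.mk 𝔞 a) x, ?_⟩
    rw [chainMap_apply, Finset.sum_eq_single (Ideal.Quotient.mk 𝔞 a)]
    · rw [Pi.single_eq_same, ← sub_eq_zero, ← map_sub, Submodule.mkQ_apply,
        Submodule.Quotient.mk_eq_zero]
      have e : a ⊗ₜ[R₀] x = a • ((1 : T) ⊗ₜ[R₀] x) := by
        rw [TensorProduct.smul_tmul', smul_eq_mul, mul_one]
      rw [e, map_smul, ← sub_smul]
      refine Submodule.smul_mem_smul ?_ Submodule.mem_top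
      rw [← Ideal.Quotient.eq, Ideal.Quotient.mk_out]
    · intro b _ hb
      rw [Pi.single_eq_of_ne hb, TensorProduct.tmul_zero, map_zero, smul_zero, map_zero]
    · intro h
      exact absurd (Finset.mem_univ _) h
  | add x y hx hy =>
    obtain ⟨f, hf⟩ := hx
    obtain ⟨f', hf'⟩ := hy
    exact ⟨f + f', by rw [map_add, hf, hf', map_add, map_add]⟩

end Level

end Fermat.Agent.FFJ.Glue.TateQuot81
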