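/-
FFJ / S32-glue (helper81), brick (D), concrete part: the **Hecke eigen-quotient of the Tate module of
`J₀(N)`** with coefficients in `T`.

`XQ p pi := (T ⊗[ℤ_p] T_p J₀(N)) / span {(T_ℓ ⊗ 1) m - pi(T_ℓ) • m}` (`ℓ ∤ N`, `ℓ ∉ S`) with the
`T`-linear action `sigX` of `G_ℚ`:
* `finite_XQ`         : finitely generated over `T`;
* `cayleyHamilton_XQ` : `σ(g)² - tr ρ(g) σ(g) + det ρ(g) = 0` for ALL `g`, for any `ρ` whose Frobenius
  characteristic polynomials are `X² - pi(T_ℓ) X + ℓ` (Chebotarev: `CHCore90`);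
* `prTors`            : the projection to `J₀(N)[pⁿ]` (flat models of the levels: `TateLevel81`).
-/
import Mathlib
import Fermat.Prelude.Def_GaloisRep_Flat
import Fermat.Prelude.Def_CuspForm_HeckeAlgebra
import Fermat.Agent.ES.J.TateJZero13
import Fermat.Agent.ORD.Alg.CHCore90
import Fermat.Agent.TW.FF.FlatModel68
import Fermat.Agent.FFJ.Glue.TateQuot81
import Fermat.Agent.FFJ.Glue.FlatOfQuot81
import Fermat.Agent.FFJ.Glue.GlobalClosure68

set_option autoImplicit false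
set_option synthInstance.maxHeartbeats 400000
set_option linter.unusedSectionVars false
set_option linter.style.haveILetI false

noncomputable section

namespace Fermat.Agent.FFJ.Glue.TateInst81

open TensorProduct AlgebraicCurve ModularCurve IsLocalRing
open Fermat.Agent.ES.J.TateJZero13 Fermat.Agent.ES.J.TateModule13
open Fermat.Agent.TW.FF.FlatModel68
open Fermat.Agent.FFJ.Glue.TateQuot81 Fermat.Agent.FFJ.Glue.FlatOfQuot81

variable {p : ℕ} [Fact p.Prime] {N : ℕ} [NeZero N] {S : Finset ℕ}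
  {T : Type} [CommRing T] [IsLocalRing T] [IsNoetherianRing T] [Algebra ℤ_[p] T]

/-- the good primes `ℓ ∤ N`, `ℓ ∉ S`. -/
abbrev GoodPrime (N : ℕ) (S : Finset ℕ) : Type :=
  {ℓ : ℕ // ℓ.Prime ∧ ¬ ℓ ∣ N ∧ ℓ ∉ (↑S : Set ℕ)}

variable (p N S) in
/-- the Hecke operators at the good primes on the Tate module. -/
def tG (i : GoodPrime N S) : Module.End ℤ_[p] (TJ p N) := tT p N ⟨i.1, i.2.1⟩

/-- the eigenvalues. -/
def cG (pi : CuspForm.heckeAlgebra N 2 (↑S : Set ℕ) →+* T) (i : GoodPrime N S) : T :=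
  pi (CuspForm.heckeAlgebra.T i.2.1 i.2.2.1 i.2.2.2)

theorem hcommG (g : GQ) (i : GoodPrime N S) : Commute (rhoT p N g) (tG p N S i) :=
  commute_rhoT_tT g _

variable (p) in
/-- the Hecke eigen-quotient of `T ⊗ T_p J₀(N)`. -/
abbrev XQ (pi : CuspForm.heckeAlgebra N 2 (↑S : Set ℕ) →+* T) : Type :=
  Q (tG p N S) (cG pi)

/-- the Galois action on the eigen-quotient. -/
def sigX (pi : CuspForm.heckeAlgebra N 2 (↑S : Set ℕ) →+* T) : GQ →* Module.End T (XQ p pi) :=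
  sig (tG p N S) (cG pi) (rhoT p N) hcommG

theorem finite_XQ (hfin : {y : JZero N | p • y = 0}.Finite)
    (pi : CuspForm.heckeAlgebra N 2 (↑S : Set ℕ) →+* T) : Module.Finite T (XQ p pi) := by
  have := (finite_free (p := p) (N := N) hfin).1
  infer_instance

open Polynomial in
/-- **Cayley–Hamilton on the eigen-quotient, for all `g`.** -/
theorem cayleyHamilton_XQ (hpT : (p : T) ∈ maximalIdeal T) (hpS : p ∈ S)
    (hfin : {y : JZero N | p • y = 0}.Finite)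
    (pi : CuspForm.heckeAlgebra N 2 (↑S : Set ℕ) →+* T) (rho : GaloisRepAdic T)
    (hfrob : ∀ (ℓ : ℕ) (hℓ : ℓ.Prime) (hℓN : ¬ ℓ ∣ N) (hℓS : ℓ ∉ (↑S : Set ℕ)),
      ∀ A : ValuationSubring (AlgebraicClosure ℚ), A.LiesOverPrime ℓ →
        ∀ σ : AlgebraicClosure ℚ ≃ₐ[ℚ] AlgebraicClosure ℚ, A.IsFrobeniusAt σ ℓ →
          LinearMap.charpoly (rho.ρ σ) =
            X ^ 2 - C (pi (CuspForm.heckeAlgebra.T hℓ hℓN hℓS)) * X + C ((ℓ : T)))
    (g : GQ) :
    sigX pi g * sigX pi g - LinearMap.trace T rho.V (rho.ρ g) • sigX pi g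
      + LinearMap.det (rho.ρ g) • (1 : Module.End T (XQ p pi)) = 0 := by
  classical
  haveI := finite_XQ hfin pi
  let c : ℕ → T := fun ℓ =>
    if h : ℓ.Prime ∧ ¬ ℓ ∣ N ∧ ℓ ∉ (↑S : Set ℕ) then
      pi (CuspForm.heckeAlgebra.T h.1 h.2.1 h.2.2) else 0
  let Sbad : Finset ℕ := S ∪ N.primeFactors
  have hgood : ∀ ℓ : ℕ, ℓ.Prime → ℓ ∉ Sbad → ℓ.Prime ∧ ¬ ℓ ∣ N ∧ ℓ ∉ (↑S : Set ℕ) := by
    intro ℓ hℓ hℓS
    rw [Finset.mem_union, not_or] at hℓS
    refine ⟨hℓ, fun hdvd => hℓS.2 ?_, fun h => hℓS.1 (by exact_mod_cast h)⟩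
    exact Nat.mem_primeFactors.mpr ⟨hℓ, hdvd, NeZero.ne N⟩
  refine Fermat.Agent.ORD.Alg.CHCore90.cayleyHamilton_top (sigX pi) ?_ rho Sbad c ?_ ?_ g
  · intro n
    obtain ⟨L, hL, H⟩ := rhoT_continuous (p := p) (N := N) hfin n
    refine ⟨L, hL, fun σ hσ w => ?_⟩
    exact sig_sub_mem (tG p N S) (cG pi) (rhoT p N) hcommG (maximalIdeal T ^ n) σ
      ((p : ℤ_[p]) ^ n) (by rw [map_pow, map_natCast]; exact Ideal.pow_mem_pow hpT n) (H σ hσ) w
  · intro ℓ hℓ hℓS P hP φ hφ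
    have hg := hgood ℓ hℓ hℓS
    have h1 := hfrob ℓ hg.1 hg.2.1 hg.2.2 P hP φ hφ
    simp only [c, dif_pos hg]
    exact h1
  · intro ℓ hℓ hℓS P hP φ hφ
    have hg := hgood ℓ hℓ hℓS
    have hℓp : ℓ ≠ p := by
      rintro rfl
      exact hℓS (Finset.mem_union_left _ hpS)
    have h1 := sig_quad (tG p N S) (cG pi) (rhoT p N) hcommG φ ⟨ℓ, hg⟩ ℓ
      (rhoT_frobenius hg.1 hg.2.1 hℓp hP hφ)
    simp only [c, dif_pos hg]
    exact h1

/-! ### Flat models of the levels -/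

variable (p N) in
/-- `J₀(N)[pⁿ]`. -/
abbrev Tors (n : ℕ) : Type := ↥(Submodule.torsionBy ℤ (JZero N) ((p : ℤ) ^ n))

/-- the projection of the Tate module to `J₀(N)[pⁿ]`. -/
def prTors (n : ℕ) : TJ p N →+ Tors p N n where
  toFun x := ⟨proj n x, by
    rw [Submodule.mem_torsionBy_iff]
    have h := pow_smul_proj n x
    have e : ((p : ℤ) ^ n) • proj n x = (p ^ n) • proj n x := by
      rw [← Nat.cast_pow, natCast_zsmul]
    rw [e, h]⟩
  map_zero' := by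
    apply Subtype.ext
    simp
  map_add' x y := by
    apply Subtype.ext
    simp

theorem coe_prTors (n : ℕ) (x : TJ p N) : ((prTors n x : Tors p N n) : JZero N) = proj n x := rfl

theorem prTors_eq_zero {n : ℕ} {x : TJ p N} (h : prTors n x = 0) :
    ∃ y : TJ p N, x = ((p : ℤ_[p]) ^ n) • y := by
  have h0 : proj n x = 0 := congrArg Subtype.val h
  exact (proj_eq_zero_iff' n x).mp h0

end Fermat.Agent.FFJ.Glue.TateInst81
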