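/-
FFJ / S32-glue (helper81), brick (D), flat models of the levels of the Hecke eigen-quotient
`XQ p pi` of `T ⊗ T_p J₀(N)`:
* `flatModel_level_of_ideal` : `XQ / 𝔞 XQ` has a flat model as soon as `J₀(N)[pⁿ]` has one
  (`𝔞` of finite index, `pⁿ ∈ 𝔞`);
* `flatModel_level`          : the case `𝔞 = 𝔪ⁿ`.
-/
import Mathlib
import Fermat.Agent.FFJ.Glue.TateInst81

set_option autoImplicit false
set_option synthInstance.maxHeartbeats 400000
set_option linter.unusedSectionVars false
set_option linter.style.haveILetI false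

noncomputable section

namespace Fermat.Agent.FFJ.Glue.TateLevel81

open TensorProduct AlgebraicCurve ModularCurve IsLocalRing
open Fermat.Agent.ES.J.TateJZero13 Fermat.Agent.ES.J.TateModule13
open Fermat.Agent.TW.FF.FlatModel68
open Fermat.Agent.FFJ.Glue.TateQuot81 Fermat.Agent.FFJ.Glue.FlatOfQuot81
open Fermat.Agent.FFJ.Glue.TateInst81

variable {p : ℕ} [Fact p.Prime] {N : ℕ} [NeZero N] {S : Finset ℕ}
  {T : Type} [CommRing T] [IsLocalRing T] [IsNoetherianRing T] [Algebra ℤ_[p] T]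

/-- **span form of the subquotient closure**: `M'` is an equivariant quotient of the image in `M` of
an (arbitrary) group `A` with action. -/
theorem flatModel_of_span {A M M' : Type} [AddCommGroup A] [AddCommGroup M] [AddCommGroup M']
    {actA : GQ → A → A} {act : GQ → M → M} {act' : GQ → M' → M'}
    (φ : A →+ M) (hφ : ∀ σ a, φ (actA σ a) = act σ (φ a))
    (ψ : A →+ M') (hψsurj : Function.Surjective ψ) (hψ : ∀ σ a, ψ (actA σ a) = act' σ (ψ a))
    (hker : φ.ker ≤ ψ.ker) (h : FlatModel p M act) : FlatModel p M' act' := by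
  have hN : ∀ (σ : GQ) (m : M), m ∈ φ.range → act σ m ∈ φ.range := by
    rintro σ _ ⟨a, rfl⟩
    exact ⟨actA σ a, hφ σ a⟩
  have hNsub : FlatModel p φ.range (fun σ m => ⟨act σ m.1, hN σ m.1 m.2⟩) :=
    Fermat.Agent.FFJ.Glue.GlobalClosure68.FlatModel.sub h φ.range hN _ (fun _ _ => rfl)
  have hsurj : Function.Surjective φ.rangeRestrict := φ.rangeRestrict_surjective
  have hkerle : φ.rangeRestrict.ker ≤ ψ.ker := fun a ha => by
    rw [AddMonoidHom.mem_ker] at ha
    exact hker ((AddMonoidHom.mem_ker).mpr (congrArg Subtype.val ha))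
  have hg' : ∀ a, (φ.rangeRestrict.liftOfRightInverse (Function.surjInv hsurj)
      (Function.rightInverse_surjInv hsurj)) ⟨ψ, hkerle⟩ (φ.rangeRestrict a) = ψ a := fun a =>
    AddMonoidHom.liftOfRightInverse_comp_apply φ.rangeRestrict _
      (Function.rightInverse_surjInv hsurj) ⟨ψ, hkerle⟩ a
  refine Fermat.Agent.FFJ.Glue.GlobalClosure68.FlatModel.of_surjective
    ((φ.rangeRestrict.liftOfRightInverse (Function.surjInv hsurj)
      (Function.rightInverse_surjInv hsurj)) ⟨ψ, hkerle⟩) ?_ ?_ hNsub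
  · intro w
    obtain ⟨a, rfl⟩ := hψsurj w
    exact ⟨φ.rangeRestrict a, hg' a⟩
  · intro σ m
    obtain ⟨a, rfl⟩ := hsurj m
    have e : (⟨act σ (φ.rangeRestrict a).1, hN σ _ (φ.rangeRestrict a).2⟩ : φ.range)
        = φ.rangeRestrict (actA σ a) := Subtype.ext (hφ σ a).symm
    rw [e, hg', hg']
    exact hψ σ a


/-- flat models of the levels `XQ / 𝔞 XQ` for an ideal `𝔞` of finite index containing `pⁿ`. -/
theorem flatModel_level_of_ideal (𝔞 : Ideal T) [Finite (T ⧸ 𝔞)] (n : ℕ)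
    (hpn : algebraMap ℤ_[p] T ((p : ℤ_[p]) ^ n) ∈ 𝔞)
    (pi : CuspForm.heckeAlgebra N 2 (↑S : Set ℕ) →+* T)
    (actJ : GQ → Tors p N n → Tors p N n)
    (hactJ : ∀ σ x, ((actJ σ x : Tors p N n) : JZero N) = σ • (x : JZero N))
    (hJ : FlatModel p (Tors p N n) actJ) :
    FlatModel p (XQ p pi ⧸ (𝔞 • (⊤ : Submodule T (XQ p pi))))
      (fun g => levelRep (sigX pi) 𝔞 g) := by
  classical
  letI : Fintype (T ⧸ 𝔞) := Fintype.ofFinite _
  have hM : FlatModel p ((T ⧸ 𝔞) → Tors p N n) (fun g f b => actJ g (f b)) :=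
    Fermat.Agent.FFJ.Glue.GlobalClosure68.FlatModel.pi (fun _ => hJ)
  refine flatModel_of_span (A := (T ⧸ 𝔞) → TJ p N)
    (actA := fun g f b => rhoT p N g (f b))
    ((prTors n).compLeft (T ⧸ 𝔞)) ?_ (chainMap (tG p N S) (cG pi) 𝔞)
    (chainMap_surjective (tG p N S) (cG pi) 𝔞) ?_ ?_ hM
  · intro g f
    funext b
    apply Subtype.ext
    rw [hactJ]
    rfl
  · intro g f
    exact chainMap_equivariant (tG p N S) (cG pi) (rhoT p N) hcommG 𝔞 g f
  · intro f hf
    rw [AddMonoidHom.mem_ker] at hf ⊢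
    refine chainMap_eq_zero (tG p N S) (cG pi) 𝔞 ((p : ℤ_[p]) ^ n) hpn f fun b => ?_
    exact prTors_eq_zero (congrFun hf b)

/-- **flat models of the levels `XQ / 𝔪ⁿ XQ` of the eigen-quotient.** -/
theorem flatModel_level (hpT : (p : T) ∈ maximalIdeal T) (hres : Finite (ResidueField T))
    (pi : CuspForm.heckeAlgebra N 2 (↑S : Set ℕ) →+* T) (n : ℕ)
    (actJ : GQ → Tors p N n → Tors p N n)
    (hactJ : ∀ σ x, ((actJ σ x : Tors p N n) : JZero N) = σ • (x : JZero N))
    (hJ : FlatModel p (Tors p N n) actJ) :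
    FlatModel p (XQ p pi ⧸ ((maximalIdeal T ^ n) • (⊤ : Submodule T (XQ p pi))))
      (fun g => levelRep (sigX pi) (maximalIdeal T ^ n) g) := by
  haveI : Finite (T ⧸ maximalIdeal T) := hres
  haveI : Finite (T ⧸ maximalIdeal T ^ n) :=
    Ideal.finite_quotient_pow (IsNoetherian.noetherian _) n
  refine flatModel_level_of_ideal (maximalIdeal T ^ n) n ?_ pi actJ hactJ hJ
  rw [map_pow, map_natCast]
  exact Ideal.pow_mem_pow hpT n

end Fermat.Agent.FFJ.Glue.TateLevel81
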