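/-
FFJ / S32-glue (helper81), brick (F): **S19-shape at level `N` ⇒ `ρ.IsFlatAt p`.**

`isFlatAt_of_torsionFlat`: for a Hecke–Galois system `(pi : 𝕋 → T, ρ)` over a complete noetherian
local `𝒪`-algebra `T` (finite free over a characteristic zero domain `𝒪`, generated by the image of
`pi`), with `ρ` residually absolutely irreducible and Frobenius characteristic polynomials
`X² - pi(T_ℓ) X + ℓ`, `p` odd: if every `J₀(N)[pᵏ]` has a finite flat model over `ℤ_(p)` (the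
conclusion of the frozen S19 for `(N, p, k)`), then `ρ` is flat at `p`.

Unbundled on purpose (no `HeckeGaloisRepDatum`), so that it applies to quotients of `T` and to other
levels (ORD, `p`-old points).
-/
import Mathlib
import Fermat.Prelude.Def_GaloisRep_Flat
import Fermat.Prelude.Def_CuspForm_HeckeAlgebra
import Fermat.Agent.ES.J.PadicAlg8
import Fermat.Agent.ES.J.S30Glue8
import Fermat.Agent.ES.J.S30Final8
import Fermat.Agent.ES.J.KummerSystemJ8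
import Fermat.Agent.ES.PET.ReducedFinal17
import Fermat.Agent.S22
import Fermat.Agent.ORD.Alg.RedT83
import Fermat.Agent.ES.J.K2Final11
import Fermat.Agent.FFJ.Glue.TateInst81
import Fermat.Agent.FFJ.Glue.TateLevel81
import Fermat.Agent.FFJ.Glue.FlatOfQuot81
import Fermat.Agent.FFJ.Glue.Faith68

set_option autoImplicit false
set_option synthInstance.maxHeartbeats 400000
set_option linter.unusedSectionVars false
set_option linter.style.haveILetI false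

noncomputable section

namespace Fermat.Agent.FFJ.Glue.FlatOfTorsion81

open TensorProduct AlgebraicCurve ModularCurve IsLocalRing
open Fermat.Agent.ES.J.TateJZero13 Fermat.Agent.ES.J.TateModule13
open Fermat.Agent.ES.J.S30Glue8 Fermat.Agent.ES.HEQ.FaithInst26 Fermat.Agent.ES.HEQ.FaithFinal26
open Fermat.Agent.TW.FF.FlatModel68
open Fermat.Agent.FFJ.Glue.TateQuot81 Fermat.Agent.FFJ.Glue.FlatOfQuot81
open Fermat.Agent.FFJ.Glue.TateInst81 Fermat.Agent.FFJ.Glue.TateLevel81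

section Generic

variable {p : ℕ} [Fact p.Prime] {N : ℕ} [NeZero N] {S : Finset ℕ}
  {T : Type} [CommRing T] [IsLocalRing T] [IsNoetherianRing T] [Algebra ℤ_[p] T]

/-- `2` is a unit in a local ring of odd residue characteristic. -/
theorem isUnit_two (hp2 : p ≠ 2) (hpT : (p : T) ∈ maximalIdeal T) : IsUnit (2 : T) := by
  by_contra h
  have h2 : (2 : T) ∈ maximalIdeal T := (mem_maximalIdeal _).mpr h
  obtain ⟨k, hk⟩ := (Fact.out : p.Prime).odd_of_ne_two hp2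
  have h1 : (1 : T) = (p : T) - 2 * (k : T) := by
    rw [hk]; push_cast; ring
  have : (1 : T) ∈ maximalIdeal T := by
    rw [h1]
    exact Ideal.sub_mem _ hpT (Ideal.mul_mem_right _ _ h2)
  exact (Ideal.ne_top_iff_one _).mp (maximalIdeal.isMaximal T).ne_top this

open Polynomial in
/-- the glue, assuming faithfulness of the eigen-quotient. -/
theorem isFlatAt_of_faithful (hp2 : p ≠ 2) (hpT : (p : T) ∈ maximalIdeal T) (hpS : p ∈ S)
    (hres : Finite (ResidueField T))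
    (pi : CuspForm.heckeAlgebra N 2 (↑S : Set ℕ) →+* T) (rho : GaloisRepAdic T)
    (habs : rho.residual.IsAbsolutelyIrreducible)
    (hfrob : ∀ (ℓ : ℕ) (hℓ : ℓ.Prime) (hℓN : ¬ ℓ ∣ N) (hℓS : ℓ ∉ (↑S : Set ℕ)),
      ∀ A : ValuationSubring (AlgebraicClosure ℚ), A.LiesOverPrime ℓ →
        ∀ σ : AlgebraicClosure ℚ ≃ₐ[ℚ] AlgebraicClosure ℚ, A.IsFrobeniusAt σ ℓ →
          LinearMap.charpoly (rho.ρ σ) =
            X ^ 2 - C (pi (CuspForm.heckeAlgebra.T hℓ hℓN hℓS)) * X + C ((ℓ : T)))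
    (hX : ∀ a : T, (∀ x : XQ p pi, a • x = 0) → a = 0)
    (hS19 : ∀ n : ℕ, ∃ actJ : GQ → Tors p N n → Tors p N n,
      (∀ σ x, ((actJ σ x : Tors p N n) : JZero N) = σ • (x : JZero N)) ∧
        FlatModel p (Tors p N n) actJ) :
    rho.IsFlatAt p := by
  have hfin := Fermat.Agent.ES.J.S30Final8.k1 p N
  haveI := finite_XQ hfin pi
  have hCH := cayleyHamilton_XQ hpT hpS hfin pi rho hfrob
  have hlvl : ∀ n : ℕ, FlatModel p (XQ p pi ⧸ ((maximalIdeal T ^ n) • (⊤ : Submodule T (XQ p pi))))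
      (fun g => levelRep (sigX pi) (maximalIdeal T ^ n) g) := fun n =>
    (hS19 n).elim fun actJ h => flatModel_level hpT hres pi n actJ h.1 h.2
  exact isFlatAt_of_module rho habs (isUnit_two hp2 hpT) hres hX (sigX pi) hCH hlvl

/-- **faithfulness of the eigen-quotient** (`T` reduced and `ℤ`-flat). -/
theorem faithful_XQ [IsReduced T] [Module.Flat ℤ T]
    (hNS : ∀ q : ℕ, q.Prime → q ∣ N → q ∈ S) (hcmp : TateComparison p N)
    (pi : CuspForm.heckeAlgebra N 2 (↑S : Set ℕ) →+* T) (a : T)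
    (ha : ∀ x : XQ p pi, a • x = 0) : a = 0 := by
  obtain ⟨ι₀, hι₀, hheck⟩ := hcmp
  have hS : ∀ q : ℕ, q.Prime → q ∣ N → q ∈ (↑S : Set ℕ) := fun q hq hqN => by
    exact_mod_cast hNS q hq hqN
  let g : TJ p N →ₗ[ℤ_[p]] T ⊗[ℤ_[p]] TJ p N := TensorProduct.mk ℤ_[p] T (TJ p N) 1
  have hg : IsBaseChange T g := TensorProduct.isBaseChange ℤ_[p] (TJ p N) T
  have hι : IsBaseChange T ((g.restrictScalars ℤ).comp ι₀) := IsBaseChange.comp hι₀ hg
  refine Fermat.Agent.FFJ.Glue.Faith68.eq_zero_of_smul_mem_rel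
    ((heckeLam (N := N) (↑S : Set ℕ) hS : _ →ₐ[ℤ] _) : _ →+* _)
    (heckeLam_injective (↑S : Set ℕ) hS) pi ((g.restrictScalars ℤ).comp ι₀) hι a (fun m => ?_)
  have h1 : a • m ∈ rel (tG p N S) (cG pi) := by
    have h0 := ha ((rel (tG p N S) (cG pi)).mkQ m)
    rw [← map_smul, Submodule.mkQ_apply, Submodule.Quotient.mk_eq_zero] at h0
    exact h0
  refine Submodule.span_mono ?_ h1
  rintro _ ⟨i, m', rfl⟩
  refine ⟨CuspForm.heckeAlgebra.T i.2.1 i.2.2.1 i.2.2.2, (tG p N S i).baseChange T, m',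
    fun y => ?_, rfl⟩
  show (tT p N ⟨i.1, i.2.1⟩).baseChange T ((1 : T) ⊗ₜ[ℤ_[p]] ι₀ y) =
    (1 : T) ⊗ₜ[ℤ_[p]] ι₀ (heckeLam (↑S : Set ℕ) hS
      (CuspForm.heckeAlgebra.T i.2.1 i.2.2.1 i.2.2.2) y)
  rw [LinearMap.baseChange_tmul, hheck i.1 i.2.1 i.2.2.1 y,
    heckeLam_T' (↑S : Set ℕ) hS i.1 i.2.1 i.2.2.1 i.2.2.2]

end Generic

/-! ### The final statements -/

section Final

variable {p : ℕ} {N : ℕ} [NeZero N] {S : Finset ℕ}
  {𝒪 : Type} [CommRing 𝒪] [IsDomain 𝒪] [CharZero 𝒪]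
  {T : Type} [CommRing T] [IsLocalRing T] [IsNoetherianRing T]
  [IsAdicComplete (IsLocalRing.maximalIdeal T) T] [Algebra 𝒪 T]
  [Module.Finite 𝒪 T] [Module.Free 𝒪 T]

theorem smul_mem_torsionBy (n : ℤ) (σ : GQ) {x : JZero N}
    (hx : x ∈ Submodule.torsionBy ℤ (JZero N) n) : σ • x ∈ Submodule.torsionBy ℤ (JZero N) n := by
  rw [Submodule.mem_torsionBy_iff] at hx ⊢
  rw [smul_comm, hx, smul_zero]

open Polynomial in
/-- **flat models of all `J₀(N)[pᵏ]` ⇒ `ρ` flat at `p`** (any presentation `actJ` of the Galois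
action on the torsion subgroups). -/
theorem isFlatAt_of_torsionFlat (hp : p.Prime) (hp2 : p ≠ 2)
    (hpT : (p : T) ∈ IsLocalRing.maximalIdeal T) (hpS : p ∈ S)
    (hNS : ∀ q : ℕ, q.Prime → q ∣ N → q ∈ S) (hres : Finite (IsLocalRing.ResidueField T))
    (pi : CuspForm.heckeAlgebra N 2 (↑S : Set ℕ) →+* T)
    (hadj : Algebra.adjoin 𝒪 (Set.range pi) = ⊤) (rho : GaloisRepAdic T)
    (habs : rho.residual.IsAbsolutelyIrreducible)
    (hfrob : ∀ (ℓ : ℕ) (hℓ : ℓ.Prime) (hℓN : ¬ ℓ ∣ N) (hℓS : ℓ ∉ (↑S : Set ℕ)),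
      ∀ A : ValuationSubring (AlgebraicClosure ℚ), A.LiesOverPrime ℓ →
        ∀ σ : AlgebraicClosure ℚ ≃ₐ[ℚ] AlgebraicClosure ℚ, A.IsFrobeniusAt σ ℓ →
          LinearMap.charpoly (rho.ρ σ) =
            X ^ 2 - C (pi (CuspForm.heckeAlgebra.T hℓ hℓN hℓS)) * X + C ((ℓ : T)))
    (hS19 : ∀ k : ℕ, ∃ actJ : GQ → Tors p N k → Tors p N k,
      (∀ σ x, ((actJ σ x : Tors p N k) : JZero N) = σ • (x : JZero N)) ∧
        FlatModel p (Tors p N k) actJ) :
    rho.IsFlatAt p := by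
  haveI : Fact p.Prime := ⟨hp⟩
  letI : Algebra ℤ_[p] T := (Fermat.Agent.ES.J.PadicAlg8.padicToLocal p hpT).toAlgebra
  haveI : IsReduced (CuspForm.heckeAlgebra N 2 (↑S : Set ℕ)) :=
    Fermat.Agent.ES.PET.ReducedFinal17.isReduced_heckeAlgebra N _ hNS
  haveI : Module.Finite ℤ (CuspForm.heckeAlgebra N 2 (↑S : Set ℕ)) := Fermat.Agent.S22.result N 2 _
  haveI : IsReduced T := Fermat.Agent.ORD.Alg.RedT83.isReduced_of_adjoin pi hadj
  haveI : IsAddTorsionFree T := IsAddTorsionFree.of_isTorsionFree 𝒪 T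
  haveI : Module.Flat ℤ T := inferInstance
  have hcmp : TateComparison p N :=
    Fermat.Agent.ES.J.K2Final11.k2 (Fermat.Agent.ES.J.KummerSystemJ8.kummerSystemJ p N)
      (Fermat.Agent.ES.J.KummerSystemJ8.heckeCompatJ p N)
  exact isFlatAt_of_faithful hp2 hpT hpS hres pi rho habs hfrob
    (fun a ha => faithful_XQ hNS hcmp pi a ha) hS19

open Polynomial in
/-- **the frozen S19 conclusion for `(N, p, k)`, all `k` ⇒ `ρ` flat at `p`.** -/
theorem isFlatAt_of_s19 (hp : p.Prime) (hp2 : p ≠ 2)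
    (hpT : (p : T) ∈ IsLocalRing.maximalIdeal T) (hpS : p ∈ S)
    (hNS : ∀ q : ℕ, q.Prime → q ∣ N → q ∈ S) (hres : Finite (IsLocalRing.ResidueField T))
    (pi : CuspForm.heckeAlgebra N 2 (↑S : Set ℕ) →+* T)
    (hadj : Algebra.adjoin 𝒪 (Set.range pi) = ⊤) (rho : GaloisRepAdic T)
    (habs : rho.residual.IsAbsolutelyIrreducible)
    (hfrob : ∀ (ℓ : ℕ) (hℓ : ℓ.Prime) (hℓN : ¬ ℓ ∣ N) (hℓS : ℓ ∉ (↑S : Set ℕ)),
      ∀ A : ValuationSubring (AlgebraicClosure ℚ), A.LiesOverPrime ℓ →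
        ∀ σ : AlgebraicClosure ℚ ≃ₐ[ℚ] AlgebraicClosure ℚ, A.IsFrobeniusAt σ ℓ →
          LinearMap.charpoly (rho.ρ σ) =
            X ^ 2 - C (pi (CuspForm.heckeAlgebra.T hℓ hℓN hℓS)) * X + C ((ℓ : T)))
    (hS19 : ∀ k : ℕ,
      ∃ (H : Type) (_ : CommRing H) (_ : HopfAlgebra (GaloisRep.ratLocalizedAt p) H),
        Module.Finite (GaloisRep.ratLocalizedAt p) H ∧ Module.Flat (GaloisRep.ratLocalizedAt p) H ∧
        Coalgebra.IsCocomm (GaloisRep.ratLocalizedAt p) H ∧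
        ∃ e : WithConv (H →ₐ[GaloisRep.ratLocalizedAt p] AlgebraicClosure ℚ) ≃
            ↥(Submodule.torsionBy ℤ (JZero N) ((p : ℤ) ^ k)),
          (∀ f g, e (f * g) = e f + e g) ∧
          ∀ (σ : AlgebraicClosure ℚ ≃ₐ[ℚ] AlgebraicClosure ℚ)
            (f g : WithConv (H →ₐ[GaloisRep.ratLocalizedAt p] AlgebraicClosure ℚ)),
            (∀ h : H, g h = σ (f h)) → ((e g : JZero N)) = σ • (e f : JZero N)) :
    rho.IsFlatAt p := by
  refine isFlatAt_of_torsionFlat (𝒪 := 𝒪) hp hp2 hpT hpS hNS hres pi hadj rho habs hfrob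
    (fun n => ?_)
  obtain ⟨H, i1, i2, hfin, hflat, hco, e, hmul, hact⟩ := hS19 n
  refine ⟨fun σ x => ⟨σ • (x : JZero N), smul_mem_torsionBy _ σ x.2⟩, fun _ _ => rfl, ?_⟩
  exact ⟨H, i1, i2, hfin, hflat, hco, e, hmul, fun σ f g h => Subtype.ext (hact σ f g h)⟩

end Final

/-! ### With the binders of the frozen S32 -/

section S32Binders

variable {p : ℕ} {N : ℕ} [NeZero N] {S : Finset ℕ}
  {𝒪 : Type} [CommRing 𝒪] [IsDomain 𝒪] [IsDiscreteValuationRing 𝒪]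
  [IsAdicComplete (IsLocalRing.maximalIdeal 𝒪) 𝒪]
  {T : Type} [CommRing T] [IsLocalRing T] [IsNoetherianRing T]
  [IsAdicComplete (IsLocalRing.maximalIdeal T) T] [Algebra 𝒪 T] [IsLocalHom (algebraMap 𝒪 T)]
  [Module.Finite 𝒪 T] [Module.Free 𝒪 T]

theorem natCast_mem_maximalIdeal (hp𝒪 : (p : 𝒪) ∈ IsLocalRing.maximalIdeal 𝒪) :
    (p : T) ∈ IsLocalRing.maximalIdeal T := by
  have h1 : algebraMap 𝒪 T (p : 𝒪) ∈ IsLocalRing.maximalIdeal T := map_nonunit _ _ hp𝒪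
  rwa [map_natCast] at h1

open Polynomial in
/-- the glue with the binders of the frozen S32 (unbundled Hecke system). -/
theorem isFlatAt_of_torsionFlat' [Finite (IsLocalRing.ResidueField 𝒪)] [CharZero 𝒪]
    (hp : p.Prime) (hp2 : p ≠ 2) (hp𝒪 : (p : 𝒪) ∈ IsLocalRing.maximalIdeal 𝒪)
    (hpS : p ∈ S) (hNS : ∀ q : ℕ, q.Prime → q ∣ N → q ∈ S)
    (pi : CuspForm.heckeAlgebra N 2 (↑S : Set ℕ) →+* T)
    (hadj : Algebra.adjoin 𝒪 (Set.range pi) = ⊤) (rho : GaloisRepAdic T)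
    (habs : rho.residual.IsAbsolutelyIrreducible)
    (hfrob : ∀ (ℓ : ℕ) (hℓ : ℓ.Prime) (hℓN : ¬ ℓ ∣ N) (hℓS : ℓ ∉ (↑S : Set ℕ)),
      ∀ A : ValuationSubring (AlgebraicClosure ℚ), A.LiesOverPrime ℓ →
        ∀ σ : AlgebraicClosure ℚ ≃ₐ[ℚ] AlgebraicClosure ℚ, A.IsFrobeniusAt σ ℓ →
          LinearMap.charpoly (rho.ρ σ) =
            X ^ 2 - C (pi (CuspForm.heckeAlgebra.T hℓ hℓN hℓS)) * X + C ((ℓ : T)))
    (hS19 : ∀ k : ℕ, ∃ actJ : GQ → Tors p N k → Tors p N k,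
      (∀ σ x, ((actJ σ x : Tors p N k) : JZero N) = σ • (x : JZero N)) ∧
        FlatModel p (Tors p N k) actJ) :
    rho.IsFlatAt p :=
  isFlatAt_of_torsionFlat (𝒪 := 𝒪) hp hp2 (natCast_mem_maximalIdeal hp𝒪) hpS hNS
    (IsLocalRing.ResidueField.finite_of_finite (R := 𝒪) (S := T) inferInstance) pi hadj rho habs
    hfrob hS19

end S32Binders

end Fermat.Agent.FFJ.Glue.FlatOfTorsion81
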