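/-
FFJ / S32-glue, insurance twin of the concrete half (helper96), ABSTRACT part.

**Flatness of `ρ` from a Tate-module-like datum.**

`T` a noetherian local `ℤ_[p]`-algebra with finite residue field, `2 ∈ Tˣ`, `p ∈ 𝔪_T`;
`ρ : G_ℚ → GL₂(T)` residually absolutely irreducible with Frobenius characteristic polynomials
`X² - cc ℓ X + ℓ` (`ℓ ∉ Sbad`);
`𝒯` a finite `ℤ_[p]`-module with a representation `r` of `G_ℚ`, commuting operators `t i` and
eigenvalues `c i : T`, such that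

* (`hfaith`) the eigen-quotient `X = (T ⊗ 𝒯) / (t i ⊗ 1 - c i)` is a faithful `T`-module,
* (`hcont`)  `r σ ≡ 1 mod pⁿ` on an open subgroup,
* (`hES`)    Eichler–Shimura: `r φ ² - t i r φ + ℓ = 0` at Frobenius lifts, with `c i = cc ℓ`,
* (`pr`, `hS19`) equivariant maps `pr n : 𝒯 → J n` with kernel `pⁿ 𝒯` into groups with a flat
  model (`J n = J₀(N)[pⁿ]`, literally the frozen S19).

Then `ρ.IsFlatAt p`.  Everything is abstract (no Tate module of `J₀(N)` appears): the proof is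
`TateQuot81` (eigen-quotient, congruences, quadratic relations, chain map) + `CHCore90`
(Cayley–Hamilton by Chebotarev) + `GlobalClosure68` (closure of flat models) +
`FlatOfQuot81.isFlatAt_of_module` (Boston–Lenstra–Ribet + Artin–Rees).
-/
import Mathlib
import Fermat.Prelude.Def_GaloisRep_Flat
import Fermat.Agent.TW.FF.FlatModel68
import Fermat.Agent.FFJ.Glue.TateQuot81
import Fermat.Agent.FFJ.Glue.FlatOfQuot81
import Fermat.Agent.FFJ.Glue.GlobalClosure68
import Fermat.Agent.ORD.Alg.CHCore90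

set_option autoImplicit false
set_option linter.style.haveILetI false

noncomputable section

namespace Fermat.Agent.FFJ.Glue.TateGlue96

open TensorProduct Polynomial IsLocalRing
open Fermat.Agent.TW.FF.FlatModel68 Fermat.Agent.FFJ.Glue.TateQuot81
open Fermat.Agent.FFJ.Glue.FlatOfQuot81

local notation "Qb" => AlgebraicClosure ℚ

/-! ### Small algebra -/

section Small

variable {T : Type*} [CommRing T] [IsLocalRing T]

/-- `T / 𝔪ⁿ` is finite for a noetherian local ring with finite residue field. -/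
theorem finite_quotient_maximalIdeal_pow [IsNoetherianRing T] (hfin : Finite (ResidueField T))
    (n : ℕ) : Finite (T ⧸ maximalIdeal T ^ n) := by
  haveI : Finite (T ⧸ maximalIdeal T) := hfin
  exact Ideal.finite_quotient_pow (IsNoetherian.noetherian (maximalIdeal T)) n

variable {p : ℕ} [Fact p.Prime] [Algebra ℤ_[p] T]

theorem algebraMap_pow_mem (hpT : algebraMap ℤ_[p] T (p : ℤ_[p]) ∈ maximalIdeal T) (n : ℕ) :
    algebraMap ℤ_[p] T ((p : ℤ_[p]) ^ n) ∈ maximalIdeal T ^ n := by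
  rw [map_pow]
  exact Ideal.pow_mem_pow hpT n

end Small

/-! ### The levels of the eigen-quotient carry flat models -/

section Levels

variable {p : ℕ} [Fact p.Prime] {T : Type} [CommRing T] [Algebra ℤ_[p] T]
  {𝒯 : Type} [AddCommGroup 𝒯] [Module ℤ_[p] 𝒯]
  (r : GQ →* Module.End ℤ_[p] 𝒯) {ι : Type} (t : ι → Module.End ℤ_[p] 𝒯) (c : ι → T)
  (hcomm : ∀ g i, Commute (r g) (t i))

/-- **a level of the eigen-quotient is an equivariant subquotient of a finite power of `J`.** -/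
theorem flatModel_level (𝔞 : Ideal T) [Finite (T ⧸ 𝔞)] (r₀ : ℤ_[p])
    (hr₀ : algebraMap ℤ_[p] T r₀ ∈ 𝔞)
    {J : Type} [AddCommGroup J] (act : GQ → J → J) (pr : 𝒯 →+ J)
    (hpr : ∀ σ x, pr (r σ x) = act σ (pr x))
    (hker : ∀ x, pr x = 0 → ∃ y, x = r₀ • y)
    (hJ : FlatModel p J act) :
    FlatModel p (Q t c ⧸ (𝔞 • (⊤ : Submodule T (Q t c))))
      (fun g => levelRep (sig t c r hcomm) 𝔞 g) := by
  classical
  letI : Fintype (T ⧸ 𝔞) := Fintype.ofFinite _
  -- the flat model on the power of `J`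
  have hM : FlatModel p ((T ⧸ 𝔞) → J) (fun σ f b => act σ (f b)) :=
    Fermat.Agent.FFJ.Glue.GlobalClosure68.FlatModel.pi (fun _ => hJ)
  -- post-composition with `pr`
  let Φ : ((T ⧸ 𝔞) → 𝒯) →+ ((T ⧸ 𝔞) → J) :=
    { toFun := fun f b => pr (f b)
      map_zero' := by funext b; simp
      map_add' := fun f f' => by funext b; simp }
  let Nsub : AddSubgroup ((T ⧸ 𝔞) → J) := Φ.range
  have hN : ∀ (σ : GQ) (f : (T ⧸ 𝔞) → J), f ∈ Nsub → (fun b => act σ (f b)) ∈ Nsub := by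
    rintro σ _ ⟨f, rfl⟩
    exact ⟨fun b => r σ (f b), funext fun b => hpr σ (f b)⟩
  let actN : GQ → Nsub → Nsub := fun σ f => ⟨fun b => act σ (f.1 b), hN σ f.1 f.2⟩
  have hNsub : FlatModel p Nsub actN :=
    Fermat.Agent.FFJ.Glue.GlobalClosure68.FlatModel.sub hM Nsub hN actN (fun _ _ => rfl)
  -- the chain map factors through `Nsub`
  let Φ' : ((T ⧸ 𝔞) → 𝒯) →+ Nsub := Φ.rangeRestrict
  have hΦ'surj : Function.Surjective Φ' := Φ.rangeRestrict_surjective
  let q : ((T ⧸ 𝔞) → 𝒯) →+ Lvl t c 𝔞 := chainMap t c 𝔞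
  have hkerle : Φ'.ker ≤ q.ker := fun f hf => by
    rw [AddMonoidHom.mem_ker] at hf ⊢
    have h0 : Φ f = 0 := congrArg Subtype.val hf
    exact chainMap_eq_zero t c 𝔞 r₀ hr₀ f fun b => hker (f b) (congrFun h0 b)
  let g' : Nsub →+ Lvl t c 𝔞 :=
    (Φ'.liftOfRightInverse (Function.surjInv hΦ'surj) (Function.rightInverse_surjInv hΦ'surj))
      ⟨q, hkerle⟩
  have hg' : ∀ f, g' (Φ' f) = q f := fun f =>
    AddMonoidHom.liftOfRightInverse_comp_apply Φ' _ (Function.rightInverse_surjInv hΦ'surj)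
      ⟨q, hkerle⟩ f
  refine Fermat.Agent.FFJ.Glue.GlobalClosure68.FlatModel.of_surjective g' ?_ ?_ hNsub
  · intro w
    obtain ⟨f, rfl⟩ := chainMap_surjective t c 𝔞 w
    exact ⟨Φ' f, hg' f⟩
  · intro σ f
    obtain ⟨f, rfl⟩ := hΦ'surj f
    have e : actN σ (Φ' f) = Φ' (fun b => r σ (f b)) :=
      Subtype.ext (funext fun b => (hpr σ (f b)).symm)
    rw [e, hg', hg']
    exact chainMap_equivariant t c r hcomm 𝔞 σ f

end Levels

/-! ### The main theorem -/

section Main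

variable {p : ℕ} [Fact p.Prime] {T : Type} [CommRing T] [IsLocalRing T] [IsNoetherianRing T]
  [Algebra ℤ_[p] T]

/-- **flatness of `ρ` from a Tate-module-like datum.** -/
theorem isFlatAt_of_tate (rho : GaloisRepAdic T)
    (habs : rho.residual.IsAbsolutelyIrreducible) (h2 : IsUnit (2 : T))
    (hfin : Finite (ResidueField T))
    (hpT : algebraMap ℤ_[p] T (p : ℤ_[p]) ∈ maximalIdeal T)
    {𝒯 : Type} [AddCommGroup 𝒯] [Module ℤ_[p] 𝒯] [Module.Finite ℤ_[p] 𝒯]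
    (r : GQ →* Module.End ℤ_[p] 𝒯) {ι : Type} (t : ι → Module.End ℤ_[p] 𝒯) (c : ι → T)
    (hcomm : ∀ g i, Commute (r g) (t i))
    (hfaith : ∀ a : T, (∀ m : T ⊗[ℤ_[p]] 𝒯, a • m ∈ rel t c) → a = 0)
    (hcont : ∀ n : ℕ, ∃ L : IntermediateField ℚ Qb, FiniteDimensional ℚ L ∧
      ∀ σ : GQ, (∀ a ∈ L, σ a = a) → ∀ x : 𝒯, ∃ y : 𝒯, r σ x - x = ((p : ℤ_[p]) ^ n) • y)
    (Sbad : Finset ℕ) (cc : ℕ → T)
    (hρ : ∀ ℓ : ℕ, ℓ.Prime → ℓ ∉ Sbad → ∀ P : ValuationSubring Qb, P.LiesOverPrime ℓ →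
      ∀ φ : GQ, P.IsFrobeniusAt φ ℓ →
        (rho.ρ φ).charpoly = X ^ 2 - C (cc ℓ) * X + C ((ℓ : T)))
    (hES : ∀ ℓ : ℕ, ℓ.Prime → ℓ ∉ Sbad → ∀ P : ValuationSubring Qb, P.LiesOverPrime ℓ →
      ∀ φ : GQ, P.IsFrobeniusAt φ ℓ → ∃ i : ι, c i = cc ℓ ∧
        r φ * r φ - t i * r φ + (ℓ : ℤ_[p]) • (1 : Module.End ℤ_[p] 𝒯) = 0)
    (J : ℕ → Type) [∀ n, AddCommGroup (J n)] (act : ∀ n, GQ → J n → J n)
    (pr : ∀ n, 𝒯 →+ J n)
    (hpr : ∀ n σ x, pr n (r σ x) = act n σ (pr n x))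
    (hker : ∀ n x, pr n x = 0 → ∃ y, x = ((p : ℤ_[p]) ^ n) • y)
    (hS19 : ∀ n, FlatModel p (J n) (act n)) :
    rho.IsFlatAt p := by
  haveI : Module.Finite T (T ⊗[ℤ_[p]] 𝒯) := Module.Finite.base_change ℤ_[p] T 𝒯
  haveI : Module.Finite T (Q t c) :=
    Module.Finite.of_surjective (rel t c).mkQ (rel t c).mkQ_surjective
  refine isFlatAt_of_module rho habs h2 hfin (X := Q t c) ?_ (sig t c r hcomm) ?_ ?_
  · -- faithfulness
    intro a ha
    refine hfaith a fun m => ?_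
    have h := ha ((rel t c).mkQ m)
    rw [← map_smul, Submodule.mkQ_apply, Submodule.Quotient.mk_eq_zero] at h
    exact h
  · -- Cayley–Hamilton
    intro g
    refine Fermat.Agent.ORD.Alg.CHCore90.cayleyHamilton_top (sig t c r hcomm) ?_ rho Sbad cc hρ
      ?_ g
    · intro n
      obtain ⟨L, hL, H⟩ := hcont n
      exact ⟨L, hL, fun σ hσ w =>
        sig_sub_mem t c r hcomm (maximalIdeal T ^ n) σ ((p : ℤ_[p]) ^ n)
          (algebraMap_pow_mem hpT n) (H σ hσ) w⟩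
    · intro ℓ hℓ hℓS P hP φ hφ
      obtain ⟨i, hi, hrel⟩ := hES ℓ hℓ hℓS P hP φ hφ
      rw [← hi]
      exact sig_quad t c r hcomm φ i ℓ hrel
  · -- the levels
    intro n
    haveI : Finite (T ⧸ maximalIdeal T ^ n) := finite_quotient_maximalIdeal_pow hfin n
    exact flatModel_level r t c hcomm (maximalIdeal T ^ n) ((p : ℤ_[p]) ^ n)
      (algebraMap_pow_mem hpT n) (act n) (pr n) (hpr n) (hker n) (hS19 n)

end Main

end Fermat.Agent.FFJ.Glue.TateGlue96
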